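import Fermat.Prelude.Def_FLTPrelim_Modularity
import Mathlib

/-!
# Switching at `2` for curves with good reduction at `2`: common definitions

The chain: a supersingular curve has a mod-3 partner with odd `c₄`; an ordinary one has a mod-3
partner close at `2` to a twist of the curve `11a1`, i.e. `(c₄, c₆) ≡ (496 e², 20008 e³)`
(`NearEleven`); this one has a mod-5 partner with multiplicative reduction at `2` (a cusp of Klein's
line). `Congr p W E` is congruence modulo `p` of the traces at almost all primes.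
-/

set_option autoImplicit false

namespace FLTAgent.SwitchTwo

open WeierstrassCurve

/-- Congruence of traces at almost all primes. -/
def Congr (p : ℕ) (W E : WeierstrassCurve ℤ) : Prop :=
  ∃ S : Finset ℕ, ∀ ℓ : ℕ, ℓ.Prime → ℓ ∉ S → W.IsGoodPrimeFor ℓ → E.IsGoodPrimeFor ℓ →
    (p : ℤ) ∣ E.apOfModel ℓ - W.apOfModel ℓ

theorem Congr.symm {p : ℕ} {W E : WeierstrassCurve ℤ} (h : Congr p W E) : Congr p E W :=
  h.imp fun _ hS ℓ hℓ hℓS h1 h2 => (dvd_sub_comm).1 (hS ℓ hℓ hℓS h2 h1)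

/-- Invariants congruent modulo `2 ^ K` to those of a twist of `11a1`. -/
def NearEleven (K : ℕ) (c4 c6 : ℤ) : Prop :=
  ∃ e : ℤ, (4 : ℤ) ∣ e - 1 ∧ (2 : ℤ) ^ K ∣ c4 - e ^ 2 * 496 ∧ (2 : ℤ) ^ K ∣ c6 - e ^ 3 * 20008

end FLTAgent.SwitchTwo
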