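import Fermat.Agent.Mod2.ModelOfInvariants

/-!
# Invariants at `2` of models with good reduction, and models with given invariants

`ordinary_form`: if `c₄` is odd, `(c₄, c₆) = (b² - 48 a, -b³ + 72 a b - 864 c)` with
`b ≡ 1 (mod 4)`. `supersingular_form`: if `c₄` is even and `Δ` odd, `16 ∣ c₄` and `32 ∣ c₆ - 8`.
`exists_model_supersingular`: invariants `(16 P, 8 R)` with `R ≡ 1 (mod 4)`, congruent modulo `27`
to those of a model, come from an integral model.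
-/

set_option autoImplicit false

namespace FLTAgent.SwitchTwo

open WeierstrassCurve

/-- An ordinary model in the normal form `a₁` odd, `a₃ = 0`. -/
theorem ordinary_form {W : WeierstrassCurve ℤ} (h : ¬ (2 : ℤ) ∣ W.c₄) :
    ∃ b a c : ℤ, (4 : ℤ) ∣ b - 1 ∧ W.c₄ = b ^ 2 - 48 * a ∧
      W.c₆ = -b ^ 3 + 72 * a * b - 864 * c ∧ (¬ (2 : ℤ) ∣ W.Δ → ¬ (2 : ℤ) ∣ a + c) := by
  obtain ⟨k, hk⟩ : ∃ k, W.a₁ = 2 * k + 1 := by
    rcases Int.even_or_odd' W.a₁ with ⟨k, hk | hk⟩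
    · refine absurd ?_ h
      exact ⟨(8 * (k ^ 2 + W.a₂) ^ 2 - 24 * (W.a₄ + k * W.a₃)), by
        simp only [WeierstrassCurve.c₄, WeierstrassCurve.b₂, WeierstrassCurve.b₄, hk]; ring⟩
    · exact ⟨k, hk⟩
  refine ⟨W.b₂ + 12 * W.a₃,
    W.a₄ + W.a₁ * W.a₃ * (k + 1) + 2 * W.a₂ * W.a₃ + 3 * W.a₃ ^ 2,
    W.a₃ ^ 2 * (k + 1) ^ 2 + W.a₆ + W.a₃ * W.a₄ + W.a₂ * W.a₃ ^ 2 + W.a₃ ^ 3,
    ⟨k ^ 2 + k + W.a₂ + 3 * W.a₃, by simp only [WeierstrassCurve.b₂, hk]; ring⟩, ?_, ?_, ?_⟩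
  · simp only [WeierstrassCurve.c₄, WeierstrassCurve.b₂, WeierstrassCurve.b₄, hk]; ring
  · simp only [WeierstrassCurve.c₆, WeierstrassCurve.b₂, WeierstrassCurve.b₄, WeierstrassCurve.b₆,
      hk]; ring
  · intro hΔ hac
    apply hΔ
    have hac' := (ZMod.intCast_zmod_eq_zero_iff_dvd _ 2).2 hac
    apply (ZMod.intCast_zmod_eq_zero_iff_dvd _ 2).1
    simp only [WeierstrassCurve.Δ, WeierstrassCurve.b₂, WeierstrassCurve.b₄, WeierstrassCurve.b₆,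
      WeierstrassCurve.b₈, hk] at hac' ⊢
    push_cast at hac' ⊢
    generalize (k : ZMod 2) = k, (W.a₂ : ZMod 2) = x, (W.a₃ : ZMod 2) = y,
      (W.a₄ : ZMod 2) = z, (W.a₆ : ZMod 2) = w at hac' ⊢
    revert hac'
    revert k x y z w
    decide

/-- The invariants of a supersingular model. -/
theorem supersingular_form {W : WeierstrassCurve ℤ} (hΔ : ¬ (2 : ℤ) ∣ W.Δ) (h : (2 : ℤ) ∣ W.c₄) :
    (16 : ℤ) ∣ W.c₄ ∧ (32 : ℤ) ∣ W.c₆ - 8 := by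
  obtain ⟨k, hk⟩ : ∃ k, W.a₁ = 2 * k := by
    rcases Int.even_or_odd' W.a₁ with ⟨k, hk | hk⟩
    · exact ⟨k, hk⟩
    · exfalso
      have h' := (ZMod.intCast_zmod_eq_zero_iff_dvd _ 2).2 h
      simp only [WeierstrassCurve.c₄, WeierstrassCurve.b₂, WeierstrassCurve.b₄, hk] at h'
      push_cast at h'
      revert h'
      generalize (k : ZMod 2) = k, (W.a₂ : ZMod 2) = x, (W.a₃ : ZMod 2) = y,
        (W.a₄ : ZMod 2) = z
      revert k x y z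
      decide
  obtain ⟨l, hl⟩ : ∃ l, W.a₃ = 2 * l + 1 := by
    rcases Int.even_or_odd' W.a₃ with ⟨l, hl | hl⟩
    · refine absurd ?_ hΔ
      apply (ZMod.intCast_zmod_eq_zero_iff_dvd _ 2).1
      simp only [WeierstrassCurve.Δ, WeierstrassCurve.b₂, WeierstrassCurve.b₄, WeierstrassCurve.b₆,
        WeierstrassCurve.b₈, hk, hl]
      push_cast
      generalize (k : ZMod 2) = k, (W.a₂ : ZMod 2) = x, (l : ZMod 2) = y,
        (W.a₄ : ZMod 2) = z, (W.a₆ : ZMod 2) = w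
      revert k x y z w
      decide
    · exact ⟨l, hl⟩
  refine ⟨⟨(k ^ 2 + W.a₂) ^ 2 - 3 * (W.a₄ + k * W.a₃), ?_⟩,
    ⟨-2 * (k ^ 2 + W.a₂) ^ 3 + 9 * (k ^ 2 + W.a₂) * (W.a₄ + k * W.a₃) - 27 * (l ^ 2 + l + W.a₆) - 7,
      ?_⟩⟩
  · simp only [WeierstrassCurve.c₄, WeierstrassCurve.b₂, WeierstrassCurve.b₄, hk]; ring
  · simp only [WeierstrassCurve.c₆, WeierstrassCurve.b₂, WeierstrassCurve.b₄, WeierstrassCurve.b₆,
      hk, hl]; ring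

/-- A model with supersingular invariants at `2` and given behaviour at `3`. -/
theorem exists_model_supersingular (V : WeierstrassCurve ℤ) {P R D : ℤ} (hR : (4 : ℤ) ∣ R - 1)
    (h27 : (27 : ℤ) ∣ 16 * P - V.c₄) (h27' : (27 : ℤ) ∣ 8 * R - V.c₆)
    (hD : (16 * P) ^ 3 - (8 * R) ^ 2 = 1728 * D) :
    ∃ E : WeierstrassCurve ℤ, E.c₄ = 16 * P ∧ E.c₆ = 8 * R ∧ E.Δ = D := by
  set a2 : ℤ := 7 * V.b₂ with ha2
  obtain ⟨i, hi⟩ := h27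
  obtain ⟨j, hj⟩ := h27'
  have e4 : V.c₄ = V.b₂ ^ 2 - 24 * V.b₄ := rfl
  have e6 : V.c₆ = -V.b₂ ^ 3 + 36 * V.b₂ * V.b₄ - 216 * V.b₆ := rfl
  have h3 : (3 : ℤ) ∣ a2 ^ 2 - P := by
    refine ⟨16 * V.b₂ ^ 2 - 9 * i + 8 * V.b₄ + 5 * P, ?_⟩
    rw [ha2]; linear_combination (-1 : ℤ) * hi - e4
  obtain ⟨a4, ha4⟩ := h3
  have h9 : (9 : ℤ) ∣ 2 * a4 - V.b₄ := by
    have hd : (27 : ℤ) ∣ 24 * (2 * a4 - V.b₄) :=
      ⟨29 * V.b₂ ^ 2 - i, by linear_combination (-16 : ℤ) * ha4 - hi - e4 +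
        (16 : ℤ) * (a2 + 7 * V.b₂) * ha2⟩
    omega
  obtain ⟨g, hg⟩ := h9
  have d27 : (27 : ℤ) ∣ R + 27 + 8 * a2 ^ 3 - 36 * a2 * a4 := by
    have hd : (27 : ℤ) ∣ 8 * (R + 27 + 8 * a2 ^ 3 - 36 * a2 * a4) := by
      apply (ZMod.intCast_zmod_eq_zero_iff_dvd _ 27).1
      have hj' := congrArg (Int.cast : ℤ → ZMod 27) hj
      have hg' := congrArg (fun z : ℤ => ((9 * z : ℤ) : ZMod 27)) hg
      rw [e6] at hj'
      push_cast at hj' hg' ⊢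
      have z27 : (27 : ZMod 27) = 0 := rfl
      rw [ha2]; push_cast
      linear_combination hj' - (V.b₂ : ZMod 27) * hg' +
        (813 * (V.b₂ : ZMod 27) ^ 3 - 8 * V.b₆ + 8 + j + V.b₂ * V.b₄ - 74 * V.b₂ * a4 -
          3 * V.b₂ * g) * z27
    omega
  obtain ⟨a6, ha6⟩ : (108 : ℤ) ∣ -(R + 27 + 8 * a2 ^ 3 - 36 * a2 * a4) := by
    obtain ⟨r, hr⟩ := hR
    have d4 : (4 : ℤ) ∣ R + 27 + 8 * a2 ^ 3 - 36 * a2 * a4 :=
      ⟨r + 7 + 2 * a2 ^ 3 - 9 * a2 * a4, by linarith⟩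
    exact dvd_neg.2 (by omega)
  have E4 : (⟨0, a2, 1, a4, a6⟩ : WeierstrassCurve ℤ).c₄ = 16 * P := by
    simp only [WeierstrassCurve.c₄, WeierstrassCurve.b₂, WeierstrassCurve.b₄]
    linear_combination (16 : ℤ) * ha4
  have E6 : (⟨0, a2, 1, a4, a6⟩ : WeierstrassCurve ℤ).c₆ = 8 * R := by
    simp only [WeierstrassCurve.c₆, WeierstrassCurve.b₂, WeierstrassCurve.b₄, WeierstrassCurve.b₆]
    linear_combination (8 : ℤ) * ha6
  refine ⟨_, E4, E6, ?_⟩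
  have hr := (⟨0, a2, 1, a4, a6⟩ : WeierstrassCurve ℤ).c_relation
  rw [E4, E6, hD] at hr
  exact mul_left_cancel₀ (by norm_num) hr

end FLTAgent.SwitchTwo
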