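import Mathlib

/-!
# Parameters of the switches: a prescribed class at `2`, `(4, 0)` at given odd primes

`exists_coprime_params`: for odd `M`, coprime `s, t` with `(s, t) ≡ (s₀, 1)` modulo `2 ^ K` and
`(4, 0)` modulo `M`.
-/

set_option autoImplicit false

namespace FLTAgent.SwitchTwo

/-- The group of units modulo `2 ^ n` has exponent dividing `2 ^ n`. -/
theorem two_pow_dvd_pow_sub_one (n : ℕ) {v : ℤ} (hv : ¬ (2 : ℤ) ∣ v) :
    (2 : ℤ) ^ n ∣ v ^ 2 ^ n - 1 := by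
  induction n with
  | zero => simp
  | succ n ih =>
    have h2 : (2 : ℤ) ∣ v ^ 2 ^ n + 1 := by
      rw [← even_iff_two_dvd]
      refine Odd.add_one ?_
      rw [← even_iff_two_dvd, Int.not_even_iff_odd] at hv
      exact hv.pow
    have h : v ^ 2 ^ (n + 1) - 1 = (v ^ 2 ^ n - 1) * (v ^ 2 ^ n + 1) := by
      rw [pow_succ 2 n, pow_mul]
      ring
    rw [h, pow_succ]
    exact mul_dvd_mul ih h2

/-- For odd `M` there are coprime `s, t` near `(s₀, 1)` at `2` and near `(4, 0)` modulo `M`. -/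
theorem exists_coprime_params (K : ℕ) (s₀ : ℤ) {M : ℤ} (hM : ¬ (2 : ℤ) ∣ M) :
    ∃ s t : ℤ, (2 : ℤ) ^ K ∣ s - s₀ ∧ (2 : ℤ) ^ K ∣ t - 1 ∧ M ∣ s - 4 ∧ M ∣ t ∧ IsCoprime s t := by
  have hcop : IsCoprime ((2 : ℤ) ^ K) M :=
    ((Int.prime_two.coprime_iff_not_dvd).2 hM).pow_left
  have h4 : IsCoprime (4 : ℤ) M := by
    have := ((Int.prime_two.coprime_iff_not_dvd).2 hM).pow_left (m := 2)
    norm_num at this
    exact this
  obtain ⟨x, y, hxy⟩ := hcop
  refine ⟨s₀ * (y * M) + 4 * (x * 2 ^ K), M ^ 2 ^ K, ⟨(4 - s₀) * x, ?_⟩,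
    two_pow_dvd_pow_sub_one K hM, ⟨(s₀ - 4) * y, ?_⟩, dvd_pow_self M (pow_ne_zero _ two_ne_zero), ?_⟩
  · linear_combination s₀ * hxy
  · linear_combination 4 * hxy
  · refine IsCoprime.pow_right ?_
    have e : s₀ * (y * M) + 4 * (x * 2 ^ K) = 4 + M * ((s₀ - 4) * y) := by
      linear_combination 4 * hxy
    rw [e]
    exact h4.add_mul_left_left _

end FLTAgent.SwitchTwo
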