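import Fermat.Agent.Mod2.HesseForms
import Fermat.Agent.SwitchTwo.Basic
import Fermat.Agent.SwitchTwo.Params

/-!
# An ordinary curve has a member of its mod-3 family close to a twist of `11a1` at `2`

With `A = b² - 48 a`, `B = -b³ + 72 a b - 864 c`, `s = b + 8 y`: `sh4 = 2¹² P(y)`, `sh6 = 2¹⁵ R(y)`,
`shq = 2⁸ Q(y)`, and `β P - 31 Q` (`β³ Δ ≡ -161051`) has a simple even root modulo `2`.
-/

set_option autoImplicit false

namespace FLTAgent.SwitchTwo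

open FLTAgent.Mod2

section Polys

variable {S : Type*} [CommRing S]

/-- `sh4` on the line, divided by `2 ^ 12`. -/
def ordP (b a c y : S) : S :=
  (-81) * a * b * c + (12) * a * b * y^3 + (324) * a * c * y + (-48) * a * y^4 +
    (27) * a^2 * b * y + (216) * a^2 * y^2 + (81) * a^3 + (-162) * b * c * y^2 +
    (-27) * b^2 * c * y + (1) * b^2 * y^4 + (-432) * c * y^3 + (729) * c^2

/-- `shq` on the line, divided by `2 ^ 8`. -/
def ordQ (b a c y : S) : S :=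
  (72) * a * y^2 + (-27) * a^2 + (27) * b * c + (8) * b * y^3 + (216) * c * y + (16) * y^4

/-- `sh6` on the line, divided by `2 ^ 15`. -/
def ordR (b a c y : S) : S :=
  (-26244) * a * b * c^2 + (576) * a * b * y^6 + (-4860) * a * b^2 * c * y^2 +
    (-144) * a * b^2 * y^5 + (77760) * a * c * y^4 + (104976) * a * c^2 * y +
    (-32076) * a^2 * b * c * y + (2160) * a^2 * b * y^4 + (-1458) * a^2 * b^2 * c +
    (540) * a^2 * b^2 * y^3 + (-58320) * a^2 * c * y^2 + (13824) * a^2 * y^5 +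
    (4860) * a^3 * b * y^2 + (26244) * a^3 * c + (729) * a^4 * b + (23328) * a^4 * y +
    (-5184) * b * c * y^5 + (87480) * b * c^2 * y^2 + (-3240) * b^2 * c * y^4 +
    (8748) * b^2 * c^2 * y + (-540) * b^3 * c * y^3 + (729) * b^3 * c^2 + (-8) * b^3 * y^6 +
    (-6912) * c * y^6 + (233280) * c^2 * y^3 + (157464) * c^3

/-- The discriminant of the curve. -/
def ordD (b a c : S) : S :=
  (72) * a * b * c + (1) * a^2 * b^2 + (-64) * a^3 + (-1) * b^3 * c + (-432) * c^2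

end Polys

theorem sh_line (b a c y : ℤ) :
    sh4 (b ^ 2 - 48 * a) (-b ^ 3 + 72 * a * b - 864 * c) (b + 8 * y) 1 = 4096 * ordP b a c y ∧
      sh6 (b ^ 2 - 48 * a) (-b ^ 3 + 72 * a * b - 864 * c) (b + 8 * y) 1 = 32768 * ordR b a c y ∧
      shq (b ^ 2 - 48 * a) (-b ^ 3 + 72 * a * b - 864 * c) (b + 8 * y) 1 = 256 * ordQ b a c y := by
  refine ⟨?_, ?_, ?_⟩ <;> simp only [sh4, sh6, shq, ordP, ordQ, ordR] <;> ring

theorem ordD_eq {b a c D : ℤ}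
    (hrel : (b ^ 2 - 48 * a) ^ 3 - (-b ^ 3 + 72 * a * b - 864 * c) ^ 2 = 1728 * D) :
    D = ordD b a c := by
  refine mul_left_cancel₀ (show (1728 : ℤ) ≠ 0 by norm_num) ?_
  rw [← hrel, ordD]
  ring

theorem zmod4_facts : ∀ a c z : ZMod 4, (a + c = 1 ∨ a + c = 3) →
    (ordQ 1 a c (2 * z) = 1 ∨ ordQ 1 a c (2 * z) = 3) ∧
      ordD 1 a c = ordQ 1 a c (2 * z) ∧ ordR 1 a c (2 * z) = 1 := by
  unfold ordQ ordD ordR
  decide

theorem zmod2_facts : ∀ a c β : ZMod 2, a + c = 1 → β = 1 →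
    β * ordP 1 a c 0 - 31 * ordQ 1 a c 0 = 0 ∧ β * 27 * (a ^ 2 * 1 - 1 ^ 2 * c) = 1 := by
  unfold ordP ordQ
  decide

/-- The change of `β P - 31 Q` along even arguments. -/
theorem ordF_diff (β b a c z u : ℤ) :
    (β * ordP b a c (2 * z + 2 * u) - 31 * ordQ b a c (2 * z + 2 * u)) -
        (β * ordP b a c (2 * z) - 31 * ordQ b a c (2 * z)) =
      2 * u * (β * 27 * (a ^ 2 * b - b ^ 2 * c) + 2 * ((72) * a * b * u * z * β +
    (24) * a * b * u^2 * β + (72) * a * b * z^2 * β + (162) * a * c * β + (-2232) * a * u +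
    (-1152) * a * u * z^2 * β + (-768) * a * u^2 * z * β + (-192) * a * u^3 * β +
    (-4464) * a * z + (-768) * a * z^3 * β + (216) * a^2 * u * β + (432) * a^2 * z * β +
    (-162) * b * c * u * β + (-324) * b * c * z * β + (-1488) * b * u * z + (-496) * b * u^2 +
    (-1488) * b * z^2 + (24) * b^2 * u * z^2 * β + (16) * b^2 * u^2 * z * β +
    (4) * b^2 * u^3 * β + (16) * b^2 * z^3 * β + (-3348) * c + (-2592) * c * u * z * β +
    (-864) * c * u^2 * β + (-2592) * c * z^2 * β + (-11904) * u * z^2 + (-7936) * u^2 * z +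
    (-1984) * u^3 + (-7936) * z^3)) := by
  simp only [ordP, ordQ]
  ring

theorem cast_two_eq_one {x : ℤ} (h : ¬ (2 : ℤ) ∣ x) : (x : ZMod 2) = 1 := by
  have : ∀ w : ZMod 2, w ≠ 0 → w = 1 := by decide
  exact this _ fun h0 => h ((ZMod.intCast_zmod_eq_zero_iff_dvd x 2).1 h0)

/-- Hensel's lemma for the simple even root of `β P - 31 Q`. -/
theorem exists_even_root {b a c β : ℤ} (hb : ¬ (2 : ℤ) ∣ b) (hac : ¬ (2 : ℤ) ∣ a + c)
    (hβ : ¬ (2 : ℤ) ∣ β) (n : ℕ) :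
    ∃ z : ℤ, (2 : ℤ) ^ (n + 1) ∣ β * ordP b a c (2 * z) - 31 * ordQ b a c (2 * z) := by
  have hac' : (a : ZMod 2) + (c : ZMod 2) = 1 := by rw [← Int.cast_add]; exact cast_two_eq_one hac
  obtain ⟨h0, hG⟩ := zmod2_facts a c β hac' (cast_two_eq_one hβ)
  induction n with
  | zero =>
    refine ⟨0, ?_⟩
    rw [zero_add, pow_one, mul_zero]
    refine (ZMod.intCast_zmod_eq_zero_iff_dvd _ 2).1 ?_
    simp only [ordP, ordQ, Int.cast_add, Int.cast_sub, Int.cast_mul, Int.cast_pow, Int.cast_neg,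
      Int.cast_ofNat, Int.cast_zero, cast_two_eq_one hb] at h0 ⊢
    exact h0
  | succ n ih =>
    obtain ⟨z, w, hw⟩ := ih
    refine ⟨z + 2 ^ n * w, ?_⟩
    have hd := ordF_diff β b a c z (2 ^ n * w)
    obtain ⟨g, hg⟩ : (2 : ℤ) ∣ β * 27 * (a ^ 2 * b - b ^ 2 * c) + 1 := by
      refine (ZMod.intCast_zmod_eq_zero_iff_dvd _ 2).1 ?_
      push_cast
      rw [cast_two_eq_one hb, hG]
      decide
    rw [show 2 * (z + 2 ^ n * w) = 2 * z + 2 * (2 ^ n * w) by ring]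
    set F1 := β * ordP b a c (2 * z + 2 * (2 ^ n * w)) - 31 * ordQ b a c (2 * z + 2 * (2 ^ n * w))
    set F0 := β * ordP b a c (2 * z) - 31 * ordQ b a c (2 * z)
    obtain ⟨E, hE⟩ : ∃ E : ℤ, F1 - F0 =
        2 * (2 ^ n * w) * (β * 27 * (a ^ 2 * b - b ^ 2 * c) + 2 * E) := ⟨_, hd⟩
    refine ⟨w * (g + E), ?_⟩
    rw [pow_succ, pow_succ] at *
    linear_combination hE + hw + 2 * (2 ^ n * w) * hg

theorem dvd_sh_sub {m s t s' t' : ℤ} (A B : ℤ) (hs : m ∣ s - s') (ht : m ∣ t - t') :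
    m ∣ sh4 A B s t - sh4 A B s' t' ∧ m ∣ sh6 A B s t - sh6 A B s' t' ∧
      m ∣ shq A B s t - shq A B s' t' := by
  set φ := Ideal.Quotient.mk (Ideal.span {m})
  have hφ : ∀ {x y : ℤ}, φ x = φ y ↔ m ∣ x - y := fun {x y} => by
    rw [Ideal.Quotient.eq, Ideal.mem_span_singleton]
  refine ⟨hφ.1 ?_, hφ.1 ?_, hφ.1 ?_⟩
  · rw [map_sh4, map_sh4, hφ.2 hs, hφ.2 ht]
  · rw [map_sh6, map_sh6, hφ.2 hs, hφ.2 ht]
  · rw [map_shq, map_shq, hφ.2 hs, hφ.2 ht]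

/-- Near some `(s₀, 1)` the mod-3 family, rescaled at `2`, is close to a twist of `11a1`. -/
theorem exists_near_eleven (K : ℕ) {b a c D : ℤ} (hb : (4 : ℤ) ∣ b - 1)
    (hac : ¬ (2 : ℤ) ∣ a + c)
    (hrel : (b ^ 2 - 48 * a) ^ 3 - (-b ^ 3 + 72 * a * b - 864 * c) ^ 2 = 1728 * D) :
    ∃ (N : ℕ) (s₀ : ℤ), ∀ s t : ℤ, (2 : ℤ) ^ N ∣ s - s₀ → (2 : ℤ) ^ N ∣ t - 1 →
      ∃ P R Q : ℤ, sh4 (b ^ 2 - 48 * a) (-b ^ 3 + 72 * a * b - 864 * c) s t = 4096 * P ∧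
        sh6 (b ^ 2 - 48 * a) (-b ^ 3 + 72 * a * b - 864 * c) s t = 32768 * R ∧
        shq (b ^ 2 - 48 * a) (-b ^ 3 + 72 * a * b - 864 * c) s t = 256 * Q ∧
        ¬ (2 : ℤ) ∣ Q ∧ (4 : ℤ) ∣ R - 1 ∧ NearEleven K (16 * P) (8 * R) := by
  have hb1 : (b : ZMod 4) = 1 := by
    have h := (ZMod.intCast_zmod_eq_zero_iff_dvd (b - 1) 4).2 hb
    push_cast at h
    exact sub_eq_zero.1 h
  have hb2 : ¬ (2 : ℤ) ∣ b := by omega
  have hac4 : (a : ZMod 4) + (c : ZMod 4) = 1 ∨ (a : ZMod 4) + (c : ZMod 4) = 3 := by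
    have h : ((a + c : ℤ) : ZMod 4) = (((a + c) % 4 : ℤ) : ZMod 4) :=
      (ZMod.intCast_eq_intCast_iff' _ _ 4).2 (by simp)
    rw [Int.cast_add] at h
    rw [h]
    rcases (show (a + c) % 4 = 1 ∨ (a + c) % 4 = 3 by omega) with e | e <;> rw [e]
    · exact Or.inl Int.cast_one
    · exact Or.inr (by norm_num)
  have hDeq := ordD_eq hrel
  have hDQ : ∀ z : ℤ, ¬ (2 : ℤ) ∣ ordQ b a c (2 * z) ∧ (4 : ℤ) ∣ D - ordQ b a c (2 * z) ∧
      (4 : ℤ) ∣ ordR b a c (2 * z) - 1 := fun z => by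
    obtain ⟨hQ, hD, hR⟩ := zmod4_facts a c z hac4
    refine ⟨fun h => ?_, ?_, ?_⟩
    · have e2 : (2 : ℤ) ∣ ordQ b a c (2 * z) - 1 := by
        have e : (4 : ℤ) ∣ ordQ b a c (2 * z) - 1 ∨ (4 : ℤ) ∣ ordQ b a c (2 * z) - 3 := by
          rcases hQ with hQ | hQ
          · refine Or.inl ((ZMod.intCast_zmod_eq_zero_iff_dvd _ 4).1 ?_)
            simp only [ordQ] at hQ ⊢
            push_cast
            rw [hb1, hQ, sub_self]
          · refine Or.inr ((ZMod.intCast_zmod_eq_zero_iff_dvd _ 4).1 ?_)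
            simp only [ordQ] at hQ ⊢
            push_cast
            rw [hb1, hQ, sub_self]
        omega
      omega
    · refine (ZMod.intCast_zmod_eq_zero_iff_dvd _ 4).1 ?_
      rw [hDeq]
      simp only [ordQ, ordD] at hD ⊢
      push_cast
      rw [hb1, hD, sub_self]
    · refine (ZMod.intCast_zmod_eq_zero_iff_dvd _ 4).1 ?_
      simp only [ordR] at hR ⊢
      push_cast
      rw [hb1, hR, sub_self]
  have hD2 : ¬ (2 : ℤ) ∣ D := by have := hDQ 0; omega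
  set n := K + 2 with hn
  -- the cube root
  obtain ⟨Di, hDi⟩ : ∃ Di : ℤ, (2 : ℤ) ^ n ∣ D * Di - 1 :=
    ⟨D ^ (2 ^ n - 1), by rw [mul_pow_sub_one (pow_ne_zero _ two_ne_zero)]; exact two_pow_dvd_pow_sub_one n hD2⟩
  set v := -161051 * Di
  have h2n : (2 : ℤ) ∣ 2 ^ n := dvd_pow_self 2 (by omega)
  have hv : ¬ (2 : ℤ) ∣ v := fun h => by
    have h1 := h2n.trans hDi
    rcases Int.prime_two.dvd_mul.1 h with h | h
    · omega
    · have := h.mul_left D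
      omega
  obtain ⟨j, e, hje⟩ : ∃ j e : ℕ, 2 ^ n * j + 1 = e * 3 := by
    have h3 : ¬ 3 ∣ 2 ^ n := fun h => by
      have := Nat.prime_three.dvd_of_dvd_pow h
      omega
    rcases (show 2 ^ n % 3 = 1 ∨ 2 ^ n % 3 = 2 by omega) with h | h
    · exact ⟨2, (2 ^ n * 2 + 1) / 3, by omega⟩
    · exact ⟨1, (2 ^ n + 1) / 3, by omega⟩
  set β := v ^ e
  have hβ : (2 : ℤ) ^ n ∣ β ^ 3 * D + 161051 := by
    have h1 : β ^ 3 * D + 161051 =
        ((v ^ 2 ^ n) ^ j - 1) * (v * D) - 161051 * (D * Di - 1) := by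
      rw [← pow_mul v e 3, ← hje, pow_succ, pow_mul]
      ring
    rw [h1]
    exact dvd_sub (((two_pow_dvd_pow_sub_one n hv).trans (sub_one_dvd_pow_sub_one _ j)).mul_right _)
      (hDi.mul_left _)
  have hβ2 : ¬ (2 : ℤ) ∣ β := fun h => hv (Int.prime_two.dvd_of_dvd_pow h)
  obtain ⟨z, hz⟩ := exists_even_root hb2 hac hβ2 n
  obtain ⟨hQ0, hDQ0, hR0⟩ := hDQ z
  obtain ⟨e4, e6, eq⟩ := sh_line b a c (2 * z)
  refine ⟨n + 20, b + 8 * (2 * z), fun s t hs ht => ?_⟩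
  set A := b ^ 2 - 48 * a
  set B := -b ^ 3 + 72 * a * b - 864 * c
  have hsh := dvd_sh_sub A B hs ht
  obtain ⟨⟨k4, hk4⟩, ⟨k6, hk6⟩, ⟨kq, hkq⟩⟩ := hsh
  rw [pow_add] at hk4 hk6 hkq
  obtain ⟨P, hP⟩ : ∃ P, P = ordP b a c (2 * z) + 2 ^ n * (256 * k4) := ⟨_, rfl⟩
  obtain ⟨R, hR⟩ : ∃ R, R = ordR b a c (2 * z) + 2 ^ n * (32 * k6) := ⟨_, rfl⟩
  obtain ⟨Q, hQ⟩ : ∃ Q, Q = ordQ b a c (2 * z) + 2 ^ n * (4096 * kq) := ⟨_, rfl⟩
  have E4 : sh4 A B s t = 4096 * P := by rw [hP]; linear_combination hk4 + e4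
  have E6 : sh6 A B s t = 32768 * R := by rw [hR]; linear_combination hk6 + e6
  have Eq : shq A B s t = 256 * Q := by rw [hQ]; linear_combination hkq + eq
  have h4n : (4 : ℤ) ∣ 2 ^ n := ⟨2 ^ K, by rw [hn, pow_add]; ring⟩
  have hQ2 : ¬ (2 : ℤ) ∣ Q := fun h => hQ0 (by
    have := (h2n.mul_right (4096 * kq))
    rw [hQ] at h
    omega)
  have hR4 : (4 : ℤ) ∣ R - 1 := by
    have := (h4n.mul_right (32 * k6))
    rw [hR]
    omega
  refine ⟨P, R, Q, E4, E6, Eq, hQ2, hR4, ?_⟩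
  have hid : 64 * P ^ 3 - R ^ 2 = 27 * D * Q ^ 3 := by
    have h := sh4_cube_sub_sh6_sq A B s t
    rw [E4, E6, Eq, hrel] at h
    refine mul_left_cancel₀ (show (2 : ℤ) ^ 30 ≠ 0 by norm_num) ?_
    linear_combination h
  have hF : (2 : ℤ) ^ n ∣ β * P - 31 * Q := by
    have h1 := (pow_dvd_pow (2 : ℤ) n.le_succ).trans hz
    have h2 : β * P - 31 * Q = (β * ordP b a c (2 * z) - 31 * ordQ b a c (2 * z)) +
        2 ^ n * (β * (256 * k4) - 31 * (4096 * kq)) := by rw [hP, hQ]; ring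
    rw [h2]
    exact dvd_add h1 (dvd_mul_right _ _)
  have hP4 : (4 : ℤ) ∣ P - 3 := by
    -- `β ≡ β³ ≡ D ≡ Q` and `β P ≡ -Q`
    have hzero : ∀ β D Q P : ZMod 4, β ^ 3 * D + 161051 = 0 → β * P - 31 * Q = 0 → D - Q = 0 →
        Q = 1 ∨ Q = 3 → P - 3 = 0 := by decide
    have c : ∀ {x : ℤ}, (4 : ℤ) ∣ x → (x : ZMod 4) = 0 :=
      fun h => (ZMod.intCast_zmod_eq_zero_iff_dvd _ 4).2 h
    have u1 := c (h4n.trans hβ)
    have u2 := c (h4n.trans hF)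
    have u3 : ((D - Q : ℤ) : ZMod 4) = 0 := c (by
      have := (h4n.mul_right (4096 * kq))
      rw [hQ]
      omega)
    have u4 : (Q : ZMod 4) = 1 ∨ (Q : ZMod 4) = 3 := by
      rcases (show (4 : ℤ) ∣ Q - 1 ∨ (4 : ℤ) ∣ Q - 3 by omega) with h | h
      · exact Or.inl (by simpa [sub_eq_zero] using c h)
      · exact Or.inr (by simpa [sub_eq_zero] using c h)
    push_cast at u1 u2 u3
    refine (ZMod.intCast_zmod_eq_zero_iff_dvd _ 4).1 ?_
    push_cast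
    exact hzero β D Q P u1 u2 u3 u4
  set w := (2501 * P) ^ (2 ^ n - 1)
  have hP2 : ¬ (2 : ℤ) ∣ 2501 * P := fun h => by
    rcases Int.prime_two.dvd_mul.1 h with h | h <;> omega
  have hw : (2 : ℤ) ^ n ∣ 2501 * P * w - 1 := by
    rw [mul_pow_sub_one (pow_ne_zero _ two_ne_zero)]
    exact two_pow_dvd_pow_sub_one n hP2
  refine ⟨31 * R * w, ?_, ?_⟩
  · have hz4 : ∀ P R w : ZMod 4, P - 3 = 0 → R - 1 = 0 → 2501 * P * w - 1 = 0 →
        31 * R * w - 1 = 0 := by decide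
    have c : ∀ {x : ℤ}, (4 : ℤ) ∣ x → (x : ZMod 4) = 0 :=
      fun h => (ZMod.intCast_zmod_eq_zero_iff_dvd _ 4).2 h
    have u1 := c hP4
    have u2 := c hR4
    have u3 := c (h4n.trans hw)
    push_cast at u1 u2 u3
    refine (ZMod.intCast_zmod_eq_zero_iff_dvd _ 4).1 ?_
    push_cast
    exact hz4 _ _ _ u1 u2 u3
  -- the congruences
  have hT : (2 : ℤ) ^ n ∣ 31 ^ 3 * R ^ 2 - 2501 ^ 2 * P ^ 3 := by
    have hβi := two_pow_dvd_pow_sub_one n hβ2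
    have h3 : (2 : ℤ) ^ n ∣ β ^ 3 * (31 ^ 3 * R ^ 2 - 2501 ^ 2 * P ^ 3) := by
      have hF3 : (2 : ℤ) ^ n ∣ (β * P) ^ 3 - (31 * Q) ^ 3 := hF.trans (sub_dvd_pow_sub_pow _ _ 3)
      have h4 : β ^ 3 * (31 ^ 3 * R ^ 2 - 2501 ^ 2 * P ^ 3) =
          -(27 * 31 ^ 3 * Q ^ 3) * (β ^ 3 * D + 161051) -
            27 * 161051 * ((β * P) ^ 3 - (31 * Q) ^ 3) := by
        linear_combination (-31 ^ 3 * β ^ 3) * hid
      rw [h4]
      exact dvd_sub (hβ.mul_left _) (hF3.mul_left _)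
    exact ((Int.prime_two.coprime_iff_not_dvd.2 hβ2).pow (m := n) (n := 3)).dvd_of_dvd_mul_left h3
  have hKn : (2 : ℤ) ^ K ∣ 2 ^ n := pow_dvd_pow 2 (by omega)
  constructor
  · have h : (2 : ℤ) ^ n ∣ 16 * P - (31 * R * w) ^ 2 * 496 := by
      have e : 16 * P - (31 * R * w) ^ 2 * 496 =
          16 * (-(w ^ 2) * (31 ^ 3 * R ^ 2 - 2501 ^ 2 * P ^ 3) -
            P * (2501 * P * w + 1) * (2501 * P * w - 1)) := by ring
      rw [e]
      exact (dvd_sub (hT.mul_left _) (hw.mul_left _)).mul_left _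
    exact hKn.trans h
  · have h : (2 : ℤ) ^ n ∣ 8 * R - (31 * R * w) ^ 3 * 20008 := by
      have e : 8 * R - (31 * R * w) ^ 3 * 20008 =
          8 * (-(R * w ^ 3 * 2501) * (31 ^ 3 * R ^ 2 - 2501 ^ 2 * P ^ 3) -
            R * ((2501 * P * w) ^ 2 + 2501 * P * w + 1) * (2501 * P * w - 1)) := by ring
      rw [e]
      exact (dvd_sub (hT.mul_left _) (hw.mul_left _)).mul_left _
    exact hKn.trans h

end FLTAgent.SwitchTwo
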