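import Fermat.Agent.Mod2.HesseCongr
import Fermat.Agent.Switch.Count
import Fermat.Agent.SwitchTwo.Basic
import Fermat.Agent.SwitchTwo.Params
import Fermat.Agent.SwitchTwo.Models
import Fermat.Agent.SwitchTwo.OrdinaryTwo

/-!
# The mod-3 switches at `2`

`exists_switch_supersingular` and `exists_switch_ordinary`: members of the mod-3 (Hesse) family of
`W` with parameters `(s, t)` prescribed at `2` and near `(4, 0)` at `3` and the bad primes of `W`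
(`switch_three_of_params`: semistable, congruent modulo `3`, with discriminant `Δ Q³`). In the
supersingular case `s ≡ 0 (mod 4)` makes `c₄` odd; in the ordinary case the parameters of
`exists_near_eleven` give invariants near a twist of `11a1` at `2`.
-/

set_option autoImplicit false
set_option linter.style.haveILetI false

namespace FLTAgent.SwitchTwo

open WeierstrassCurve
open FLTAgent.Mod2 FLTAgent.Switch

theorem six_ne_zero_zmod {p : ℕ} [Fact p.Prime] (h2 : p ≠ 2) (h3 : p ≠ 3) :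
    (6 : ZMod p) ≠ 0 := by
  intro h
  have h' : ((2 * 3 : ℕ) : ZMod p) = 0 := by push_cast; linear_combination h
  rcases (Fact.out : p.Prime).dvd_mul.1 ((ZMod.natCast_eq_zero_iff _ p).1 h') with h | h
  · exact h2 ((Nat.prime_dvd_prime_iff_eq Fact.out Nat.prime_two).1 h)
  · exact h3 ((Nat.prime_dvd_prime_iff_eq Fact.out Nat.prime_three).1 h)

theorem cube_ne_sq_of_good {p : ℕ} [Fact p.Prime] (h2 : p ≠ 2) (h3 : p ≠ 3)
    {V : WeierstrassCurve ℤ} (hV : ¬ (p : ℤ) ∣ V.Δ) :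
    (V.c₄ : ZMod p) ^ 3 ≠ (V.c₆ : ZMod p) ^ 2 := by
  intro he
  have hr := congrArg (Int.cast : ℤ → ZMod p) V.c_relation
  push_cast at hr
  rw [he, sub_self] at hr
  refine hV ((ZMod.intCast_zmod_eq_zero_iff_dvd _ p).1 ((mul_eq_zero.1 hr).resolve_left ?_))
  have h6 := six_ne_zero_zmod (p := p) h2 h3
  rw [show (1728 : ZMod p) = 6 ^ 3 * 2 ^ 3 by norm_num]
  exact mul_ne_zero (pow_ne_zero _ h6) (pow_ne_zero _ fun h => h6 (by linear_combination 3 * h))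

/-- Near `(4, 0)` modulo `M` the scaled forms agree with `(A, B, 1)` modulo `M`. -/
theorem near_congr (A B : ℤ) {s t C4 C6 Q M : ℤ} (hM : ¬ (2 : ℤ) ∣ M) (hs : M ∣ s - 4)
    (ht : M ∣ t) (e4 : sh4 A B s t = 256 * C4) (e6 : sh6 A B s t = 4096 * C6)
    (eq : shq A B s t = 256 * Q) : M ∣ C4 - A ∧ M ∣ C6 - B ∧ M ∣ Q - 1 := by
  have cop : ∀ k : ℕ, IsCoprime M ((2 : ℤ) ^ k) := fun k =>
    ((Int.prime_two.coprime_iff_not_dvd.2 hM).pow_left).symm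
  have cast : ∀ x : ℤ, M ∣ x ↔ (x : ZMod M.natAbs) = 0 := fun x => by
    rw [ZMod.intCast_zmod_eq_zero_iff_dvd, Int.natAbs_dvd]
  have hs' : (s : ZMod M.natAbs) = 4 := by
    have := (cast _).1 hs
    push_cast at this
    exact sub_eq_zero.1 this
  have ht' : (t : ZMod M.natAbs) = 0 := (cast _).1 ht
  refine ⟨(cop 8).dvd_of_dvd_mul_left ?_, (cop 12).dvd_of_dvd_mul_left ?_,
    (cop 8).dvd_of_dvd_mul_left ?_⟩
  · rw [show (2 : ℤ) ^ 8 * (C4 - A) = sh4 A B s t - 256 * A by rw [e4]; ring, cast]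
    simp only [sh4]; push_cast; rw [hs', ht']; ring
  · rw [show (2 : ℤ) ^ 12 * (C6 - B) = sh6 A B s t - 4096 * B by rw [e6]; ring, cast]
    simp only [sh6]; push_cast; rw [hs', ht']; ring
  · rw [show (2 : ℤ) ^ 8 * (Q - 1) = shq A B s t - 256 by rw [eq]; ring, cast]
    simp only [shq]; push_cast; rw [hs', ht']; ring

/-- The properties of the member of the family with invariants `(C₄, C₆, Δ Q³)`. -/
theorem switch_three_of_params (W E : WeierstrassCurve ℤ) (hΔ : W.Δ ≠ 0)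
    (hW : W.IsSemistableModel) {s t C4 C6 Q M : ℤ} (e4 : sh4 W.c₄ W.c₆ s t = 256 * C4)
    (e6 : sh6 W.c₄ W.c₆ s t = 4096 * C6) (eq : shq W.c₄ W.c₆ s t = 256 * Q)
    (hM : ¬ (2 : ℤ) ∣ M) (hM0 : 27 * W.Δ ∣ M) (hs : M ∣ s - 4) (ht : M ∣ t)
    (hst : IsCoprime s t) (E4 : E.c₄ = C4) (E6 : E.c₆ = C6) (ED : E.Δ = W.Δ * Q ^ 3)
    (h2 : (2 : ℤ) ∣ E.Δ → ¬ (2 : ℤ) ∣ C4) :
    E.Δ ≠ 0 ∧ E.IsSemistableModel ∧ ((3 : ℤ) ∣ E.Δ → (3 : ℤ) ∣ W.Δ) ∧ Congr 3 W E := by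
  obtain ⟨n4, n6, nq⟩ := near_congr W.c₄ W.c₆ hM hs ht e4 e6 eq
  have h3M : (3 : ℤ) ∣ M := (Dvd.intro (9 * W.Δ) (by ring)).trans hM0
  have hΔM : W.Δ ∣ M := (dvd_mul_left _ _).trans hM0
  have hQ : ∀ p : ℕ, p.Prime → (p : ℤ) ∣ M → ¬ (p : ℤ) ∣ Q := fun p hp hpM hpQ =>
    (Nat.prime_iff_prime_int.1 hp).not_dvd_one (by
      simpa using dvd_sub hpQ (hpM.trans nq))
  have hQ0 : Q ≠ 0 := fun h => hQ 3 Nat.prime_three (by exact_mod_cast h3M) (h ▸ dvd_zero _)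
  have hE0 : E.Δ ≠ 0 := ED ▸ mul_ne_zero hΔ (pow_ne_zero _ hQ0)
  have hdiv : ∀ p : ℕ, p.Prime → (p : ℤ) ∣ E.Δ → (p : ℤ) ∣ W.Δ ∨ (p : ℤ) ∣ Q := fun p hp h =>
    ((Nat.prime_iff_prime_int.1 hp).dvd_or_dvd (ED ▸ h)).imp id
      (Nat.prime_iff_prime_int.1 hp).dvd_of_dvd_pow
  have h3 : (3 : ℤ) ∣ E.Δ → (3 : ℤ) ∣ W.Δ := fun h =>
    (hdiv 3 Nat.prime_three (by exact_mod_cast h)).resolve_right
      (hQ 3 Nat.prime_three (by exact_mod_cast h3M)) |> fun h => by exact_mod_cast h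
  refine ⟨hE0, fun p hp hpD => ?_, h3, ?_⟩
  · haveI : Fact p.Prime := ⟨hp⟩
    have hpi := Nat.prime_iff_prime_int.1 hp
    rw [E4]
    rcases eq_or_ne p 2 with rfl | hp2
    · exact_mod_cast h2 (by exact_mod_cast hpD)
    intro hc
    by_cases hpM : (p : ℤ) ∣ M
    · have hpΔ := (hdiv p hp hpD).resolve_right (hQ p hp hpM)
      exact hW p hp hpΔ (by simpa using dvd_sub hc (hpM.trans n4))
    have hp3 : p ≠ 3 := fun h => hpM (h ▸ by exact_mod_cast h3M)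
    have hpQ := (hdiv p hp hpD).resolve_left fun h => hpM (h.trans hΔM)
    have hq0 := (ZMod.intCast_zmod_eq_zero_iff_dvd _ p).2
      (show (p : ℤ) ∣ shq W.c₄ W.c₆ s t from eq ▸ hpQ.mul_left _)
    have h40 := (ZMod.intCast_zmod_eq_zero_iff_dvd _ p).2
      (show (p : ℤ) ∣ sh4 W.c₄ W.c₆ s t from e4 ▸ hc.mul_left _)
    rw [← eq_intCast (Int.castRingHom (ZMod p)), map_shq] at hq0
    rw [← eq_intCast (Int.castRingHom (ZMod p)), map_sh4] at h40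
    obtain ⟨z1, z2⟩ := sh4_shq_eq_zero (six_ne_zero_zmod hp2 hp3)
      (cube_ne_sq_of_good hp2 hp3 fun h => hpM (h.trans hΔM)) hq0 h40
    simp only [eq_intCast, ZMod.intCast_zmod_eq_zero_iff_dvd] at z1 z2
    exact hpi.not_isUnit (hst.isUnit_of_dvd' z1 z2)
  · refine ⟨(2 * M).natAbs.primeFactors, fun ℓ hℓ hℓS hg hg' => ?_⟩
    classical
    haveI : Fact ℓ.Prime := ⟨hℓ⟩
    have hM' : (2 * M) ≠ 0 := mul_ne_zero two_ne_zero fun h => hM (h ▸ dvd_zero _)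
    have hℓ2 : ¬ (ℓ : ℤ) ∣ 2 * M := fun h => hℓS (Nat.mem_primeFactors.2
      ⟨hℓ, Int.natCast_dvd.1 h, Int.natAbs_ne_zero.2 hM'⟩)
    have hne2 : ℓ ≠ 2 := fun h => hℓ2 (by subst h; exact dvd_mul_right _ _)
    have hne3 : ℓ ≠ 3 := fun h => hℓ2 (by subst h; exact Dvd.dvd.mul_left (by exact_mod_cast h3M) _)
    have h4ne : (4 : ZMod ℓ) ≠ 0 := by
      intro h
      have h' : ((2 * 2 : ℕ) : ZMod ℓ) = 0 := by push_cast; linear_combination h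
      rcases hℓ.dvd_mul.1 ((ZMod.natCast_eq_zero_iff _ ℓ).1 h') with h | h <;>
        exact hne2 ((Nat.prime_dvd_prime_iff_eq hℓ Nat.prime_two).1 h)
    set k := (4 : ZMod ℓ)⁻¹ with hk
    have hk1 : k * 4 = 1 := inv_mul_cancel₀ h4ne
    have h4 : sh4 (W.c₄ : ZMod ℓ) (W.c₆ : ZMod ℓ) (k * s) (k * t) = (E.c₄ : ZMod ℓ) := by
      rw [sh4_smul, ← eq_intCast (Int.castRingHom (ZMod ℓ)) W.c₄,
        ← eq_intCast (Int.castRingHom (ZMod ℓ)) W.c₆, ← eq_intCast (Int.castRingHom (ZMod ℓ)) s,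
        ← eq_intCast (Int.castRingHom (ZMod ℓ)) t, ← map_sh4, e4, E4, eq_intCast]
      push_cast
      linear_combination (C4 : ZMod ℓ) * ((k * 4) ^ 3 + (k * 4) ^ 2 + k * 4 + 1) * hk1
    have h6' : sh6 (W.c₄ : ZMod ℓ) (W.c₆ : ZMod ℓ) (k * s) (k * t) = (E.c₆ : ZMod ℓ) := by
      rw [sh6_smul, ← eq_intCast (Int.castRingHom (ZMod ℓ)) W.c₄,
        ← eq_intCast (Int.castRingHom (ZMod ℓ)) W.c₆, ← eq_intCast (Int.castRingHom (ZMod ℓ)) s,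
        ← eq_intCast (Int.castRingHom (ZMod ℓ)) t, ← map_sh6, e6, E6, eq_intCast]
      push_cast
      linear_combination (C6 : ZMod ℓ) *
        ((k * 4) ^ 5 + (k * 4) ^ 4 + (k * 4) ^ 3 + (k * 4) ^ 2 + k * 4 + 1) * hk1
    have h6 := six_ne_zero_zmod hne2 hne3
    rw [apOfModel_sub W E h6 hg hg', dvd_sub_comm, ← h4, ← h6']
    refine hesse_congr (L := AlgebraicClosure (ZMod ℓ)) h6 _ _ _ _
      (cube_ne_sq_of_good hne2 hne3 hg) ?_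
    rw [h4, h6']
    exact cube_ne_sq_of_good hne2 hne3 hg'

theorem not_two_dvd_mul {x y : ℤ} (hx : ¬ (2 : ℤ) ∣ x) (hy : ¬ (2 : ℤ) ∣ y) :
    ¬ (2 : ℤ) ∣ x * y := fun h => (Int.prime_two.dvd_or_dvd h).elim hx hy

theorem disc_eq {W : WeierstrassCurve ℤ} {s t C4 C6 Q : ℤ}
    (e4 : sh4 W.c₄ W.c₆ s t = 256 * C4) (e6 : sh6 W.c₄ W.c₆ s t = 4096 * C6)
    (eq : shq W.c₄ W.c₆ s t = 256 * Q) : C4 ^ 3 - C6 ^ 2 = 1728 * (W.Δ * Q ^ 3) := by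
  have h := sh4_cube_sub_sh6_sq W.c₄ W.c₆ s t
  rw [e4, e6, eq, ← W.c_relation] at h
  exact mul_left_cancel₀ (show (2 : ℤ) ^ 24 ≠ 0 by norm_num) (by linear_combination h)

/-- A supersingular curve has a mod-3 partner with odd `c₄`. -/
theorem exists_switch_supersingular (W : WeierstrassCurve ℤ) (hΔ : W.Δ ≠ 0)
    (hW : W.IsSemistableModel) (h2 : ¬ (2 : ℤ) ∣ W.Δ) (hc : (2 : ℤ) ∣ W.c₄) :
    ∃ E : WeierstrassCurve ℤ, E.Δ ≠ 0 ∧ E.IsSemistableModel ∧ ¬ (2 : ℤ) ∣ E.c₄ ∧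
      ((3 : ℤ) ∣ E.Δ → (3 : ℤ) ∣ W.Δ) ∧ Congr 3 W E := by
  obtain ⟨⟨P, hP⟩, ⟨r, hr⟩⟩ := supersingular_form h2 hc
  have hB : W.c₆ = 8 * (4 * r + 1) := by linarith
  set R := 4 * r + 1 with hR
  have hM : ¬ (2 : ℤ) ∣ 27 * W.Δ := not_two_dvd_mul (by norm_num) h2
  obtain ⟨s, t, hs, ht, hsM, htM, hst⟩ := exists_coprime_params 2 0 hM
  norm_num at hs ht
  obtain ⟨y, rfl⟩ := hs
  obtain ⟨u, hu⟩ := ht
  obtain rfl : t = 4 * u + 1 := by linarith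
  set T := 4 * u + 1 with hT
  obtain ⟨C4, hC4⟩ : ∃ C, C = 16 * P * y ^ 4 + 8 * R * y ^ 3 * T + 96 * P ^ 2 * y ^ 2 * T ^ 2 +
      8 * P * R * y * T ^ 3 + (R ^ 2 - 48 * P ^ 3) * T ^ 4 := ⟨_, rfl⟩
  obtain ⟨C6, hC6⟩ : ∃ C, C = 8 * R * y ^ 6 + 384 * P ^ 2 * y ^ 5 * T + 120 * P * R * y ^ 4 * T ^ 2 +
      20 * R ^ 2 * y ^ 3 * T ^ 3 + 60 * (2 * P ^ 2 * R) * y ^ 2 * T ^ 4 +
      (1152 * P ^ 4 - 12 * P * R ^ 2) * y * T ^ 5 + (72 * P ^ 3 * R - R ^ 3) * T ^ 6 := ⟨_, rfl⟩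
  obtain ⟨Q, hQ⟩ : ∃ C, C = y ^ 4 - 6 * P * y ^ 2 * T ^ 2 - R * y * T ^ 3 - 3 * P ^ 2 * T ^ 4 :=
    ⟨_, rfl⟩
  have e4 : sh4 W.c₄ W.c₆ (4 * y) T = 256 * C4 := by rw [hP, hB, hC4]; simp only [sh4]; ring
  have e6 : sh6 W.c₄ W.c₆ (4 * y) T = 4096 * C6 := by rw [hP, hB, hC6]; simp only [sh6]; ring
  have eq : shq W.c₄ W.c₆ (4 * y) T = 256 * Q := by rw [hP, hB, hQ]; simp only [shq]; ring
  have o4 : ¬ (2 : ℤ) ∣ C4 := by
    intro h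
    have h' := (ZMod.intCast_zmod_eq_zero_iff_dvd _ 2).2 h
    rw [hC4, hT, hR] at h'
    push_cast at h'
    revert h'
    generalize (P : ZMod 2) = a, (r : ZMod 2) = b, (y : ZMod 2) = c, (u : ZMod 2) = d
    revert a b c d
    decide
  have o6 : (4 : ℤ) ∣ C6 + 1 := by
    apply (ZMod.intCast_zmod_eq_zero_iff_dvd _ 4).1
    rw [hC6, hT, hR]
    push_cast
    generalize (P : ZMod 4) = a, (r : ZMod 4) = b, (y : ZMod 4) = c, (u : ZMod 4) = d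
    revert a b c d
    decide
  obtain ⟨n4, n6, -⟩ := near_congr W.c₄ W.c₆ hM hsM htM e4 e6 eq
  obtain ⟨E, E4, E6, ED⟩ := exists_model_of_invariants W o4 o6 ((dvd_mul_right _ _).trans n4)
    ((dvd_mul_right _ _).trans n6) (disc_eq e4 e6 eq)
  obtain ⟨h0, hss, h3, hc3⟩ := switch_three_of_params W E hΔ hW e4 e6 eq hM dvd_rfl hsM htM hst
    E4 E6 ED fun _ => o4
  exact ⟨E, h0, hss, E4 ▸ o4, h3, hc3⟩

/-- An ordinary curve has a mod-3 partner near a twist of `11a1` at `2`, with the same trace at a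
given prime. -/
theorem exists_switch_ordinary (W : WeierstrassCurve ℤ) (hΔ : W.Δ ≠ 0)
    (hW : W.IsSemistableModel) (h2 : ¬ (2 : ℤ) ∣ W.Δ) (hc : ¬ (2 : ℤ) ∣ W.c₄) (K : ℕ) {l : ℕ}
    (hl : l.Prime) (hl5 : 5 ≤ l) (hgood : W.IsGoodPrimeFor l) :
    ∃ E : WeierstrassCurve ℤ, E.Δ ≠ 0 ∧ E.IsSemistableModel ∧ ¬ (2 : ℤ) ∣ E.Δ ∧
      ((3 : ℤ) ∣ E.Δ → (3 : ℤ) ∣ W.Δ) ∧ Congr 3 W E ∧ E.IsGoodPrimeFor l ∧
      E.apOfModel l = W.apOfModel l ∧ NearEleven K E.c₄ E.c₆ := by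
  obtain ⟨b, a, c, hb, hA, hB, hac⟩ := ordinary_form hc
  obtain ⟨N, s₀, hN⟩ := exists_near_eleven K (D := W.Δ) hb (hac h2)
    (by rw [← hA, ← hB]; exact W.c_relation.symm)
  have hl2 : ¬ (2 : ℤ) ∣ (l : ℤ) := fun h => by
    have := (Nat.prime_dvd_prime_iff_eq Nat.prime_two hl).1 (by exact_mod_cast h)
    omega
  have hM : ¬ (2 : ℤ) ∣ 27 * W.Δ * l := not_two_dvd_mul (not_two_dvd_mul (by norm_num) h2) hl2
  obtain ⟨s, t, hs, ht, hsM, htM, hst⟩ := exists_coprime_params N s₀ hM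
  obtain ⟨P, R, Q, e4, e6, eq, hQ, hR, hnear⟩ := hN s t hs ht
  rw [← hA, ← hB] at e4 e6 eq
  have e4' : sh4 W.c₄ W.c₆ s t = 256 * (16 * P) := by rw [e4]; ring
  have e6' : sh6 W.c₄ W.c₆ s t = 4096 * (8 * R) := by rw [e6]; ring
  obtain ⟨n4, n6, nq⟩ := near_congr W.c₄ W.c₆ hM hsM htM e4' e6' eq
  obtain ⟨E, E4, E6, ED⟩ := exists_model_supersingular W hR
    (((dvd_mul_right _ _).trans (dvd_mul_right _ _)).trans n4)
    (((dvd_mul_right _ _).trans (dvd_mul_right _ _)).trans n6) (disc_eq e4' e6' eq)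
  have hE2 : ¬ (2 : ℤ) ∣ E.Δ := ED ▸ not_two_dvd_mul h2 (fun h => hQ (Int.prime_two.dvd_of_dvd_pow h))
  obtain ⟨h0, hss, h3, hc3⟩ := switch_three_of_params W E hΔ hW e4' e6' eq hM (dvd_mul_right _ _)
    hsM htM hst E4 E6 ED fun h => absurd h hE2
  have hlM : (l : ℤ) ∣ 27 * W.Δ * l := dvd_mul_left _ _
  have hgE : E.IsGoodPrimeFor l := fun h => by
    have hpi := Nat.prime_iff_prime_int.1 hl
    rcases hpi.dvd_or_dvd (ED ▸ h) with h | h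
    · exact hgood h
    · exact hpi.not_dvd_one (by simpa using dvd_sub (hpi.dvd_of_dvd_pow h) (hlM.trans nq))
  refine ⟨E, h0, hss, hE2, h3, hc3, hgE, ?_, E4 ▸ E6 ▸ hnear⟩
  haveI : Fact l.Prime := ⟨hl⟩
  refine sub_eq_zero.1 ?_
  rw [apOfModel_sub W E (six_ne_zero_zmod (by omega) (by omega)) hgood hgE, E4, E6]
  have z4 : (((16 * P : ℤ)) : ZMod l) = (W.c₄ : ZMod l) :=
    sub_eq_zero.1 (by rw [← Int.cast_sub]; exact (ZMod.intCast_zmod_eq_zero_iff_dvd _ l).2 (hlM.trans n4))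
  have z6 : (((8 * R : ℤ)) : ZMod l) = (W.c₆ : ZMod l) :=
    sub_eq_zero.1 (by rw [← Int.cast_sub]; exact (ZMod.intCast_zmod_eq_zero_iff_dvd _ l).2 (hlM.trans n6))
  rw [z4, z6, sub_self]

end FLTAgent.SwitchTwo
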