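import Fermat.Agent.Ihara.NonEisenstein
import Fermat.Agent.EllTorsion.Galois
import Fermat.Agent.EllP.Stable
import Fermat.Agent.EllP.NodeBridge
import Fermat.Agent.EllFrob.CharTwo
import Fermat.Agent.SwitchTwo.Basic

/-!
# Irreducibility of `E[3]`, `E[5]` of the switched curves

`dvd_ap_of_reducible`: a semistable curve with reducible mod `p` representation has
`a_ℓ ≡ 1 + ℓ (mod p)`. Hence irreducibility passes along congruences of traces at almost all primes
(`irreducible_of_congr`), and good ordinary reduction at `2` forces `E[5]` irreducible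
(`irreducible_five_of_ordinary`), as `a₂` is then odd.
-/

set_option autoImplicit false

namespace FLTAgent.SwitchTwo

open WeierstrassCurve

local notation "Qb" => AlgebraicClosure ℚ
local notation "GQ" => (AlgebraicClosure ℚ ≃ₐ[ℚ] AlgebraicClosure ℚ)

/-- A semistable curve with reducible mod `p` representation is Eisenstein at `p`. -/
theorem dvd_ap_of_reducible (W : WeierstrassCurve ℤ) (hΔ : W.Δ ≠ 0) (hW : W.IsSemistableModel)
    {p : ℕ} [Fact p.Prime] (hp2 : p ≠ 2) (hred : ¬ W.ModRepIsIrreducible p) {ℓ : ℕ}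
    (hℓ : ℓ.Prime) (hℓp : ℓ ≠ p) (hgood : W.IsGoodPrimeFor ℓ) :
    (p : ℤ) ∣ W.apOfModel ℓ - 1 - ℓ := by
  have hp : p.Prime := Fact.out
  have hpo : Odd p := hp.odd_of_ne_two hp2
  have := EllTorsion.isElliptic_map_rat hΔ
  set E : WeierstrassCurve ℚ := W.map (Int.castRingHom ℚ)
  have hV : Nat.card (EllP.QTorsion W p) = p ^ 2 :=
    EllTorsion.natCard_torsionBy_rat E p hp.ne_zero
  obtain ⟨F, hFfin, hF⟩ := EllTorsion.exists_finiteLevel_smul_eq E p hp.ne_zero
  have hnt : Nontrivial (EllP.QTorsion W p) := EllTorsion.nontrivial_torsionBy_rat E p hp.two_le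
  obtain ⟨N, hstab, hbot, htop⟩ : ∃ N : Submodule (ZMod p) (EllP.QTorsion W p),
      Affine.Point.IsGaloisStable ℚ N ∧ N ≠ ⊥ ∧ N ≠ ⊤ := by
    by_contra hcon
    refine hred ⟨hnt, fun N hN => ?_⟩
    by_contra h
    push Not at h
    exact hcon ⟨N, hN, h⟩
  have hcard : Nat.card N = p :=
    ((EllP.submodule_card_cases hV N).resolve_left hbot).resolve_right htop
  have hcases := EllP.line_fixed_or_quotient_fixed hV hΔ hp2
    (fun q hq A hA => EllP.inertiaMovesIntoE0_of_semistable hq hA hΔ (hW q hq) hpo) F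
    (fun σ hσ => hF σ ((IntermediateField.mem_fixingSubgroup_iff F σ).1 hσ)) N hcard hstab
  obtain ⟨A, hA, τ, hτ⟩ := GalCommon.exists_place_frobenius hℓ
  set a := W.apOfModel ℓ
  have key : ∀ P : EllP.QTorsion W p, τ • τ • P - a • (τ • P) + (ℓ : ℤ) • P = 0 := fun P =>
    Subtype.ext (EllFrob.frobenius_relation W hℓ hgood hpo
      ((Nat.coprime_primes hp hℓ).mpr (Ne.symm hℓp)) hA hτ (P : EllP.QPoint W)
      (by rw [← natCast_zsmul]; exact (Submodule.mem_torsionBy_iff _ _).mp P.2))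
  suffices h : ((1 - a + ℓ : ℤ) : ZMod p) = 0 by
    rw [ZMod.intCast_zmod_eq_zero_iff_dvd] at h
    simpa [sub_eq_add_neg, add_comm, add_left_comm] using h.neg_right
  by_contra hne
  rcases hcases with h | h
  · obtain ⟨x, hx, hx0⟩ := N.exists_mem_ne_zero_of_ne_bot hbot
    have hk := key x
    rw [h τ x hx, h τ x hx] at hk
    have h1 : ((1 - a + ℓ : ℤ) : ZMod p) • x = 0 := by
      rw [Int.cast_smul_eq_zsmul, add_zsmul, sub_zsmul, one_zsmul, ← hk]
      abel
    exact hx0 ((smul_eq_zero.1 h1).resolve_left hne)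
  · refine htop (eq_top_iff.2 fun P _ => ?_)
    have h1 : ((1 - a + ℓ : ℤ) : ZMod p) • P ∈ N := by
      have hm : (1 - a + ℓ : ℤ) • P =
          (τ • τ • P - a • (τ • P) + (ℓ : ℤ) • P) - (τ • τ • P - τ • P) - (τ • P - P)
            + a • (τ • P - P) := by
        rw [add_zsmul, sub_zsmul, one_zsmul, zsmul_sub]; abel
      rw [Int.cast_smul_eq_zsmul, hm, key P, zero_sub]
      exact add_mem (sub_mem (neg_mem (h τ (τ • P))) (h τ P)) (zsmul_mem (h τ P) a)
    exact (Submodule.smul_mem_iff N hne).1 h1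

/-- Irreducibility passes along a congruence. -/
theorem irreducible_of_congr {W E : WeierstrassCurve ℤ} (hΔ : W.Δ ≠ 0) (hΔE : E.Δ ≠ 0)
    (hE : E.IsSemistableModel) {p : ℕ} [Fact p.Prime] (hp2 : p ≠ 2)
    (hirr : W.ModRepIsIrreducible p) (h : Congr p W E) : E.ModRepIsIrreducible p := by
  by_contra hred
  obtain ⟨S, hS⟩ := h
  obtain ⟨ℓ, hℓ, hℓB, hℓp, hgood, hne⟩ :=
    Ihara.exists_not_eisenstein W hΔ hp2 hirr (S ∪ E.Δ.natAbs.primeFactors)
  simp only [Finset.mem_union, not_or] at hℓB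
  have hgE : E.IsGoodPrimeFor ℓ := fun hd => hℓB.2 (Nat.mem_primeFactors.mpr
    ⟨hℓ, Int.natCast_dvd.mp hd, Int.natAbs_ne_zero.mpr hΔE⟩)
  have hd := dvd_sub (dvd_ap_of_reducible E hΔE hE hp2 hred hℓ hℓp hgE)
    (hS ℓ hℓ hℓB.1 hgood hgE)
  obtain ⟨z, hz⟩ := hd
  exact hne ⟨z, by linear_combination hz⟩

/-- Point counts of ordinary curves over `ZMod 2`. -/
theorem count_two_ordinary : ∀ a2 a3 a4 a6 : ZMod 2,
    ¬ 5 ∣ (Finset.univ.filter fun q : ZMod 2 × ZMod 2 =>
      q.2 ^ 2 + 1 * q.1 * q.2 + a3 * q.2 = q.1 ^ 3 + a2 * q.1 ^ 2 + a4 * q.1 + a6).card + 1 := by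
  decide

/-- A curve with good ordinary reduction at `2` has irreducible mod `5` representation. -/
theorem irreducible_five_of_ordinary (W : WeierstrassCurve ℤ) (hΔ : W.Δ ≠ 0)
    (hW : W.IsSemistableModel) (h2 : ¬ (2 : ℤ) ∣ W.Δ) (hc : ¬ (2 : ℤ) ∣ W.c₄) :
    W.ModRepIsIrreducible 5 := by
  have : Fact (Nat.Prime 5) := ⟨Nat.prime_five⟩
  by_contra hred
  have hd := dvd_ap_of_reducible W hΔ hW (p := 5) (by norm_num) hred Nat.prime_two (by norm_num) h2
  have hΔ2 : (W.reductionMod 2).Δ ≠ 0 := by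
    rw [WeierstrassCurve.reductionMod, WeierstrassCurve.map_Δ, eq_intCast, Ne,
      ZMod.intCast_zmod_eq_zero_iff_dvd]
    exact h2
  have ha1 : (W.reductionMod 2).a₁ = 1 := by
    have : (W.reductionMod 2).a₁ ≠ 0 := by
      rw [WeierstrassCurve.reductionMod, WeierstrassCurve.map_a₁, eq_intCast, Ne,
        ZMod.intCast_zmod_eq_zero_iff_dvd]
      rintro ⟨k, hk⟩
      refine hc ⟨8 * (k ^ 2 + W.a₂) ^ 2 - 12 * W.b₄, ?_⟩
      rw [WeierstrassCurve.c₄, WeierstrassCurve.b₂, hk]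
      push_cast
      ring
    generalize (W.reductionMod 2).a₁ = x at this ⊢
    revert x; decide
  have hcard : (W.reductionMod 2).traceOfFrobenius - 1 - ((2 : ℕ) : ℤ) =
      -((W.reductionMod 2).card : ℤ) := by
    simp [WeierstrassCurve.traceOfFrobenius, Nat.card_eq_fintype_card]
    ring
  rw [apOfModel, hcard, dvd_neg, Int.natCast_dvd_natCast, EllFrob.card_eq_count hΔ2, ha1] at hd
  exact count_two_ordinary _ _ _ _ hd

end FLTAgent.SwitchTwo
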