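import Fermat.Agent.Switch.Model

/-!
# Values of the Klein line at `2` and at the cusp

The forms `lineValH`, `lineValT` of the line: homogeneity in `(s, t)`, their values at `t = 0`,
`lineVal_congr` (congruent arguments give congruent values) and `klein_at_two`, their exact values
at `(496 e², 20008 e³)` and `(76 e, 1)`.
-/

set_option autoImplicit false

namespace FLTAgent.SwitchTwo

open Switch MvPolynomial

variable {R : Type*} [CommRing R]

theorem lineValH_smul (A B l s t : R) :
    lineValH A B (l * s) (l * t) = l ^ 20 * lineValH A B s t := by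
  simp only [lineValH, Finset.mul_sum]
  refine Finset.sum_congr rfl fun k hk => ?_
  have hle : k ≤ 20 := Nat.lt_succ_iff.1 (Finset.mem_range.1 hk)
  rw [mul_pow, mul_pow, show l ^ 20 = l ^ (20 - k) * l ^ k by rw [← pow_add, Nat.sub_add_cancel hle]]
  ring

theorem lineValT_smul (A B l s t : R) :
    lineValT A B (l * s) (l * t) = l ^ 30 * lineValT A B s t := by
  simp only [lineValT, Finset.mul_sum]
  refine Finset.sum_congr rfl fun k hk => ?_
  have hle : k ≤ 30 := Nat.lt_succ_iff.1 (Finset.mem_range.1 hk)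
  rw [mul_pow, mul_pow, show l ^ 30 = l ^ (30 - k) * l ^ k by rw [← pow_add, Nat.sub_add_cancel hle]]
  ring

theorem lineValH_zero (A B s : R) :
    lineValH A B s 0 = (Nat.factorial 20 : R) * A * s ^ 20 := by
  rw [lineValH, Finset.sum_eq_single 0 (fun n _ hn => by rw [zero_pow hn, mul_zero])
    (fun h => absurd (Finset.mem_range.2 (by norm_num)) h), coeffH, if_pos rfl]
  simp

theorem lineValT_zero (A B s : R) :
    lineValT A B s 0 = (Nat.factorial 30 : R) * B * s ^ 30 := by
  rw [lineValT, Finset.sum_eq_single 0 (fun n _ hn => by rw [zero_pow hn, mul_zero])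
    (fun h => absurd (Finset.mem_range.2 (by norm_num)) h), coeffT, if_pos rfl]
  simp

theorem lineVal_congr {n A A' B B' s s' t t' : ℤ} (hA : n ∣ A - A') (hB : n ∣ B - B')
    (hs : n ∣ s - s') (ht : n ∣ t - t') :
    n ∣ lineValH A B s t - lineValH A' B' s' t' ∧ n ∣ lineValT A B s t - lineValT A' B' s' t' := by
  have e : ∀ {x y : ℤ}, n ∣ x - y ↔
      Ideal.Quotient.mk (Ideal.span {n}) x = Ideal.Quotient.mk (Ideal.span {n}) y := fun {x y} => by
    rw [Ideal.Quotient.eq, Ideal.mem_span_singleton]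
  constructor
  · rw [e, map_lineValH, map_lineValH, e.1 hA, e.1 hB, e.1 hs, e.1 ht]
  · rw [e, map_lineValT, map_lineValT, e.1 hA, e.1 hB, e.1 hs, e.1 ht]

/-- The line through a twist of `11a1` meets a cusp at `(s, t) = (76 e, 1)`. -/
theorem klein_at_two (e : ℤ) :
    lineValH (e ^ 2 * 496) (e ^ 3 * 20008) (76 * e) 1 =
        (Nat.factorial 20 : ℤ) * (2 ^ 40 * (e ^ 22 * 33 ^ 20)) ∧
      lineValT (e ^ 2 * 496) (e ^ 3 * 20008) (76 * e) 1 =
        (Nat.factorial 30 : ℤ) * (2 ^ 60 * -(e ^ 33 * 33 ^ 30)) := by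
  obtain ⟨lam, hlam⟩ := IsAlgClosed.exists_pow_nat_eq (e : ℂ) (show 0 < 10 by norm_num)
  have hH : kH lam lam = (e : ℂ) ^ 2 * 496 := by
    have := kH_smul lam (1 : ℂ) 1
    rw [mul_one, show kH (1 : ℂ) 1 = 496 by norm_num [kH, kH5]] at this
    rw [this, ← hlam]
    ring
  have hT : kT lam lam = (e : ℂ) ^ 3 * 20008 := by
    have := kT_smul lam (1 : ℂ) 1
    rw [mul_one, show kT (1 : ℂ) 1 = 20008 by norm_num [kT, kT5]] at this
    rw [this, ← hlam]
    ring
  have h1 : 76 * (e : ℂ) * lam + 1 * kFv lam lam = 132 * lam ^ 11 := by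
    rw [← hlam, kFv]; ring
  have h2 : 76 * (e : ℂ) * lam - 1 * kFu lam lam = 0 := by
    rw [← hlam, kFu]; ring
  obtain ⟨l4, l6⟩ := kH_kT_line lam lam (76 * (e : ℂ)) 1
  rw [h1, h2, hH, hT] at l4 l6
  rw [show kH (132 * lam ^ 11) 0 = 132 ^ 20 * (lam ^ 10) ^ 22 by simp only [kH, kH5]; ring,
    hlam] at l4
  rw [show kT (132 * lam ^ 11) 0 = -(132 ^ 30 * (lam ^ 10) ^ 33) by simp only [kT, kT5]; ring,
    hlam] at l6
  have inj : Function.Injective (Int.castRingHom ℂ) := Int.cast_injective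
  constructor
  · apply inj
    rw [map_lineValH]
    simp only [map_mul, map_pow, map_natCast, map_ofNat, map_one, eq_intCast]
    rw [← l4, show (132 : ℂ) = 2 ^ 2 * 33 by norm_num]
    ring
  · apply inj
    rw [map_lineValT]
    simp only [map_mul, map_pow, map_neg, map_natCast, map_ofNat, map_one, eq_intCast]
    rw [← l6, show (132 : ℂ) = 2 ^ 2 * 33 by norm_num]
    ring

end FLTAgent.SwitchTwo
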