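import Fermat.Agent.Switch.Model
import Fermat.Agent.Mod2.ModelOfInvariants
import Fermat.Agent.SwitchTwo.Basic
import Fermat.Agent.SwitchTwo.Params
import Fermat.Agent.SwitchTwo.KleinLineAt

/-!
# The mod-5 switch at `2`: from a twist of `11a1` to the cusp

`exists_switch_klein`: `496 = kH 1 1`, `20008 = kT 1 1`, and on the Klein line through `(1, 1)` the
parameter `(s, t) = (76, 1)` gives the point `(132, 0)`, where `kF = 0` (`(76 e, 1)` after the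
twist by `e`, see `klein_at_two`). Parameters near it at `2` and near `(4, 0)` at the small and the
bad primes give a semistable curve with multiplicative reduction at `2` and traces congruent modulo
`5` at almost all primes.
-/

set_option autoImplicit false
set_option linter.style.haveILetI false

namespace FLTAgent.SwitchTwo

open WeierstrassCurve Switch

/-- Division of a value on the line by its content: `V ≡ O·2ᵏ·A` modulo a multiple of `O`, and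
`V ≡ O·2ᵏ·P` modulo `2 ^ K`. -/
theorem exists_quotient {V A P X O : ℤ} {k K j : ℕ} (hkK : k ≤ K) (hX : ¬ (2 : ℤ) ∣ X) (hO : O ≠ 0)
    (hOX : O ∣ X) (hM : X ^ (j + 1) ∣ V - O * 2 ^ k * A)
    (h2 : (2 : ℤ) ^ K ∣ V - O * 2 ^ k * P) :
    ∃ C : ℤ, V = O * 2 ^ k * C ∧ X ^ j ∣ C - A ∧ (2 : ℤ) ^ (K - k) ∣ C - P := by
  have h2p : Prime (2 : ℤ) := Int.prime_two
  have hO2 : ¬ (2 : ℤ) ∣ O := fun h => hX (h.trans hOX)
  have d1 : O ∣ V := by
    have h := (hOX.trans (dvd_pow_self X (Nat.succ_ne_zero j))).trans hM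
    have h' := dvd_add h (Dvd.intro (2 ^ k * A) rfl : O ∣ O * (2 ^ k * A))
    rwa [← mul_assoc, sub_add_cancel] at h'
  have d2 : (2 : ℤ) ^ k ∣ V := by
    have h := (pow_dvd_pow (2 : ℤ) hkK).trans h2
    have h' := dvd_add h (Dvd.intro_left (O * P) rfl : (2 : ℤ) ^ k ∣ O * P * 2 ^ k)
    rwa [mul_right_comm, sub_add_cancel] at h'
  have cop : IsCoprime O ((2 : ℤ) ^ k) :=
    ((h2p.coprime_iff_not_dvd.2 hO2).pow_left).symm
  obtain ⟨C, hC⟩ := cop.mul_dvd d1 d2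
  refine ⟨C, hC, ?_, ?_⟩
  · obtain ⟨Y, hY⟩ := hOX
    rw [hC, ← mul_sub, mul_assoc] at hM
    have hcop : IsCoprime (X ^ j * Y) ((2 : ℤ) ^ k) := by
      refine (IsCoprime.pow_right ?_)
      refine (IsCoprime.mul_left (IsCoprime.pow_left ?_) ?_)
      · exact (h2p.coprime_iff_not_dvd.2 hX).symm
      · exact (h2p.coprime_iff_not_dvd.2 fun h => hX (h.trans ⟨O, by rw [hY, mul_comm]⟩)).symm
    have h : O * (X ^ j * Y) ∣ O * (2 ^ k * (C - A)) := by
      rwa [show O * (X ^ j * Y) = X ^ (j + 1) by rw [pow_succ, hY]; ring]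
    exact (Dvd.intro Y rfl).trans (hcop.dvd_of_dvd_mul_left ((mul_dvd_mul_iff_left hO).1 h))
  · rw [hC, ← mul_sub, mul_assoc, ← Nat.add_sub_cancel' hkK, pow_add] at h2
    rw [show O * (2 ^ k * (C - P)) = 2 ^ k * (O * (C - P)) by ring,
      mul_dvd_mul_iff_left (pow_ne_zero _ (by norm_num : (2 : ℤ) ≠ 0))] at h2
    exact ((h2p.coprime_iff_not_dvd.2 hO2).pow_left).dvd_of_dvd_mul_left h2

theorem odd_part_factorial_thirty :
    ∃ O O' : ℤ, (Nat.factorial 30 : ℤ) = O * 2 ^ 26 ∧ (Nat.factorial 20 : ℤ) = O' * 2 ^ 18 ∧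
      O' ∣ O ∧ (3 : ℤ) ∣ O ∧ ¬ (2 : ℤ) ∣ O :=
  ⟨3952575621190533915703125, 9280784638125, by norm_num [Nat.factorial], by norm_num [Nat.factorial],
    by norm_num, by norm_num, by norm_num⟩

theorem three_dvd_of (x : ℤ) (h : (81 : ℤ) ∣ 1728 * x) : ((3 : ℕ) : ℤ) ∣ x := by omega

variable {W E : WeierstrassCurve ℤ} {s t : ℤ}

/-- Away from the small primes a point of the line is semistable and congruent. -/
theorem klein_semistable_at (hst : IsCoprime s t) {p : ℕ} (hp : p.Prime)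
    (hM : ¬ (p : ℤ) ∣ switchM W)
    (lH : (Nat.factorial 20 : ℤ) * (2 ^ 40 * E.c₄) = lineValH W.c₄ W.c₆ s t)
    (lT : (Nat.factorial 30 : ℤ) * (2 ^ 60 * E.c₆) = lineValT W.c₄ W.c₆ s t) :
    ¬ ((p : ℤ) ∣ E.Δ ∧ (p : ℤ) ∣ E.c₄) := by
  rintro ⟨hΔ', h4'⟩
  haveI : Fact p.Prime := ⟨hp⟩
  set L := AlgebraicClosure (ZMod p)
  haveI : CharP L p := charP_of_injective_algebraMap (algebraMap (ZMod p) L).injective p
  obtain ⟨f30, f20, h1728, h5, -⟩ := natCast_ne_zero_of_not_dvd_switchM W hp hM (R := L)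
  have h4 : (E.c₄ : L) = 0 := (CharP.intCast_eq_zero_iff L p _).2 h4'
  have hd : (E.Δ : L) = 0 := (CharP.intCast_eq_zero_iff L p _).2 hΔ'
  have h6 : (E.c₆ : L) = 0 := by
    have hr := congrArg (Int.castRingHom L) E.c_relation
    rw [map_mul, map_sub, map_pow, map_pow, eq_intCast, eq_intCast, eq_intCast, eq_intCast,
      h4, hd, mul_zero] at hr
    have : (E.c₆ : L) ^ 2 = 0 := by linear_combination hr
    exact eq_zero_of_pow_eq_zero this
  have hAB := c_cube_ne_c_sq_mod W hM (R := L) h1728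
  obtain ⟨u, v, hu, hv⟩ := exists_klein_preimage h1728 h5 hAB
  have l4 := congrArg (Int.castRingHom L) lH
  have l6 := congrArg (Int.castRingHom L) lT
  rw [map_lineValH] at l4
  rw [map_lineValT] at l6
  simp only [map_mul, map_natCast, eq_intCast, h4, h6, mul_zero] at l4 l6
  obtain ⟨k4, k6⟩ := kH_kT_line u v (s : L) (t : L)
  rw [hu, hv, ← l4] at k4
  rw [hu, hv, ← l6] at k6
  obtain ⟨z1, z2⟩ := kH_kT_eq_zero h1728 h5 ((mul_eq_zero.1 k4).resolve_left f20)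
    ((mul_eq_zero.1 k6).resolve_left f30)
  have hF : kF u v ≠ 0 := by
    intro hF
    have := kH_cube_sub_kT_sq u v
    rw [hu, hv, hF] at this
    exact hAB (by linear_combination this)
  have h12 : (12 : L) ≠ 0 := fun h => h1728 (by linear_combination 144 * h)
  have hs0 : (s : L) = 0 := by
    have : (s : L) * (12 * kF u v) = 0 := by
      rw [← euler_kF]; linear_combination (kFu u v) * z1 + (kFv u v) * z2
    exact (mul_eq_zero.1 this).resolve_right (mul_ne_zero h12 hF)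
  rw [hs0, zero_mul, zero_add] at z1
  rw [hs0, zero_mul, zero_sub, neg_eq_zero] at z2
  have ht : (t : L) = 0 := by
    by_contra ht
    have e1 := (mul_eq_zero.1 z1).resolve_left ht
    have e2 := (mul_eq_zero.1 z2).resolve_left ht
    have := euler_kF u v
    rw [e1, e2] at this
    exact mul_ne_zero h12 hF (by linear_combination -this)
  obtain ⟨x, y, hxy⟩ := hst
  have := congrArg (Int.cast : ℤ → L) hxy
  push_cast at this
  rw [hs0, ht] at this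
  simp at this

/-- Traces congruent modulo `5` at a good prime, for curves matched on Klein's line. -/
theorem klein_congr_at {ℓ : ℕ} (hℓ : ℓ.Prime) (hg : W.IsGoodPrimeFor ℓ)
    (hg' : E.IsGoodPrimeFor ℓ) (hM : ¬ (ℓ : ℤ) ∣ switchM W) (ht : ¬ (ℓ : ℤ) ∣ t)
    (lH : (Nat.factorial 20 : ℤ) * (2 ^ 40 * E.c₄) = lineValH W.c₄ W.c₆ s t)
    (lT : (Nat.factorial 30 : ℤ) * (2 ^ 60 * E.c₆) = lineValT W.c₄ W.c₆ s t) :
    (5 : ℤ) ∣ E.apOfModel ℓ - W.apOfModel ℓ := by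
  classical
  haveI : Fact ℓ.Prime := ⟨hℓ⟩
  obtain ⟨f30, -, h1728, -, h6⟩ := natCast_ne_zero_of_not_dvd_switchM W hℓ hM (R := ZMod ℓ)
  rw [apOfModel_sub W E h6 hg hg', dvd_sub_comm]
  set l : ZMod ℓ := (4 : ZMod ℓ)⁻¹ with hl
  have h4 : (4 : ZMod ℓ) ≠ 0 := fun h => h1728 (by linear_combination 432 * h)
  have htk : (t : ZMod ℓ) ≠ 0 := fun h => ht ((ZMod.intCast_zmod_eq_zero_iff_dvd _ ℓ).1 h)
  have htl : l * (t : ZMod ℓ) ≠ 0 := mul_ne_zero (inv_ne_zero h4) htk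
  obtain ⟨c, hc⟩ : ∃ c : ZMod ℓ, 1 + c * (l * (t : ZMod ℓ)) = l * (s : ZMod ℓ) :=
    ⟨(l * (s : ZMod ℓ) - 1) / (l * (t : ZMod ℓ)), by rw [div_mul_cancel₀ _ htl]; ring⟩
  have l4 := congrArg (Int.castRingHom (ZMod ℓ)) lH
  have l6 := congrArg (Int.castRingHom (ZMod ℓ)) lT
  rw [map_lineValH] at l4
  rw [map_lineValT] at l6
  simp only [map_mul, map_pow, map_natCast, map_ofNat, eq_intCast] at l4 l6
  have e4 : l ^ 20 * 2 ^ 40 = 1 := by
    rw [show (2 : ZMod ℓ) ^ 40 = 4 ^ 20 by ring, ← mul_pow, hl, inv_mul_cancel₀ h4, one_pow]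
  have e6 : l ^ 30 * 2 ^ 60 = 1 := by
    rw [show (2 : ZMod ℓ) ^ 60 = 4 ^ 30 by ring, ← mul_pow, hl, inv_mul_cancel₀ h4, one_pow]
  refine klein_line_congr (L := AlgebraicClosure (ZMod ℓ)) f30 _ _ c (l * (t : ZMod ℓ))
    (c_cube_ne_c_sq_mod W hM h1728) ?_ ?_ ?_
  · rw [hc, lineValH_smul, ← l4]
    linear_combination (-(Nat.factorial 20 : ZMod ℓ) * (E.c₄ : ZMod ℓ)) * e4
  · rw [hc, lineValT_smul, ← l6]
    linear_combination (-(Nat.factorial 30 : ZMod ℓ) * (E.c₆ : ZMod ℓ)) * e6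
  intro he
  have hr := congrArg (Int.cast : ℤ → ZMod ℓ) E.c_relation
  push_cast at hr
  rw [he, sub_self] at hr
  exact hg' ((ZMod.intCast_zmod_eq_zero_iff_dvd _ ℓ).1 ((mul_eq_zero.1 hr).resolve_left h1728))

theorem dvd_of_not_dvd_two {p : ℕ} (hp : p.Prime) (hp2 : p ≠ 2) {O : ℤ} {k : ℕ} {n : ℤ}
    (h : n = O * 2 ^ k) (hd : (p : ℤ) ∣ n) : (p : ℤ) ∣ O := by
  have hpi := Nat.prime_iff_prime_int.1 hp
  rw [h] at hd
  refine (hpi.dvd_or_dvd hd).resolve_right fun h => hp2 ?_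
  exact (Nat.prime_dvd_prime_iff_eq hp Nat.prime_two).1 (by exact_mod_cast hpi.dvd_of_dvd_pow h)

/-- A curve near a twist of `11a1` at `2` has a mod-5 partner, bad at `2`. -/
theorem exists_switch_klein (W : WeierstrassCurve ℤ) (hΔ : W.Δ ≠ 0) (hW : W.IsSemistableModel)
    (h2 : ¬ (2 : ℤ) ∣ W.Δ) (hnear : NearEleven 128 W.c₄ W.c₆) :
    ∃ E : WeierstrassCurve ℤ, E.Δ ≠ 0 ∧ E.IsSemistableModel ∧ (2 : ℤ) ∣ E.Δ ∧
      ((5 : ℤ) ∣ E.Δ → (5 : ℤ) ∣ W.Δ) ∧ Congr 5 W E := by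
  obtain ⟨e, he, hn4, hn6⟩ := hnear
  obtain ⟨O, O', hO, hO', hOO, h3O, h2O⟩ := odd_part_factorial_thirty
  obtain ⟨X, hX⟩ : ∃ X, X = O * W.Δ := ⟨_, rfl⟩
  obtain ⟨j, hj⟩ : ∃ j, j = (1728 * W.Δ).natAbs + 4 := ⟨_, rfl⟩
  have hj4 : 4 ≤ j := hj ▸ Nat.le_add_left 4 _
  have he2 : ¬ (2 : ℤ) ∣ e := by clear hn4 hn6; omega
  have h2X : ¬ (2 : ℤ) ∣ X := by
    rw [hX]; exact fun h => (Int.prime_two.dvd_or_dvd h).elim h2O h2
  have h3X : (3 : ℤ) ∣ X := hX ▸ h3O.mul_right _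
  obtain ⟨s, t, hs, ht, hsM, htM, hst⟩ :=
    exists_coprime_params 128 (76 * e) (M := X ^ (j + 1))
      fun h => h2X (Int.prime_two.dvd_of_dvd_pow h)
  obtain ⟨a4, a6⟩ := lineVal_congr hn4 hn6 hs ht
  rw [(klein_at_two e).1] at a4
  rw [(klein_at_two e).2] at a6
  obtain ⟨b4, b6⟩ := lineVal_congr (n := X ^ (j + 1)) (A := W.c₄) (A' := W.c₄) (B := W.c₆)
    (B' := W.c₆) (s' := 4) (t' := 0) (by simp) (by simp) hsM (by simpa using htM)
  rw [lineValH_zero, hO'] at b4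
  rw [lineValT_zero, hO] at b6
  rw [hO'] at a4
  rw [hO] at a6
  obtain ⟨C4, hC4, c4X, c42⟩ := exists_quotient (A := W.c₄) (P := e ^ 22 * 33 ^ 20) (k := 58) (K := 128)
    (by norm_num) h2X (fun h => Nat.factorial_ne_zero 20 (Int.natCast_eq_zero.1 (hO'.trans (by rw [h, zero_mul])))) (hOO.trans (hX ▸ Dvd.intro _ rfl))
    (by convert b4 using 2; ring) (by convert a4 using 2; ring)
  obtain ⟨C6, hC6, c6X, c62⟩ := exists_quotient (A := W.c₆) (P := -(e ^ 33 * 33 ^ 30)) (k := 86) (K := 128)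
    (by norm_num) h2X (fun h => h2O (by simp [h])) (hX ▸ Dvd.intro _ rfl)
    (by convert b6 using 2; ring) (by convert a6 using 2; ring)
  have lH : (Nat.factorial 20 : ℤ) * (2 ^ 40 * C4) = lineValH W.c₄ W.c₆ s t := by
    rw [hC4, hO']; ring
  have lT : (Nat.factorial 30 : ℤ) * (2 ^ 60 * C6) = lineValT W.c₄ W.c₆ s t := by
    rw [hC6, hO]; ring
  -- modulo `4`
  have hC4odd : ¬ (2 : ℤ) ∣ C4 := fun h => by
    have h' := dvd_sub h ((dvd_pow_self (2 : ℤ) (by norm_num : 128 - 58 ≠ 0)).trans c42)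
    rw [sub_sub_cancel] at h'
    rcases Int.prime_two.dvd_or_dvd h' with h' | h'
    · exact he2 (Int.prime_two.dvd_of_dvd_pow h')
    · norm_num at h'
  have hC64 : (4 : ℤ) ∣ C6 + 1 := by
    apply (ZMod.intCast_zmod_eq_zero_iff_dvd _ 4).1
    have e1 : (e : ZMod 4) = 1 := by
      rw [← sub_eq_zero, ← Int.cast_one, ← Int.cast_sub]
      exact (ZMod.intCast_zmod_eq_zero_iff_dvd _ 4).2 he
    have e2 : (C6 : ZMod 4) = -1 := by
      have := (ZMod.intCast_zmod_eq_zero_iff_dvd _ 4).2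
        ((Dvd.intro (2 ^ 40) (by norm_num) : (4 : ℤ) ∣ 2 ^ 42).trans c62)
      rw [Int.cast_sub, Int.cast_neg, Int.cast_mul, Int.cast_pow, Int.cast_pow, e1,
        show ((33 : ℤ) : ZMod 4) = 1 from rfl, one_pow, one_pow, mul_one, sub_neg_eq_add] at this
      exact eq_neg_of_add_eq_zero_left this
    push_cast
    rw [e2]; ring
  -- the discriminant
  obtain ⟨N, hN⟩ : ∃ N, N = X ^ j := ⟨_, rfl⟩
  rw [← hN] at c4X c6X
  have hcong : ∀ {n A B A' B' : ℤ}, n ∣ A - A' → n ∣ B - B' →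
      n ∣ (A ^ 3 - B ^ 2) - (A' ^ 3 - B' ^ 2) := fun {n A B A' B'} hA hB => by
    rw [show (A ^ 3 - B ^ 2) - (A' ^ 3 - B' ^ 2) =
      (A - A') * (A ^ 2 + A * A' + A' ^ 2) - (B - B') * (B + B') by ring]
    exact dvd_sub (hA.mul_right _) (hB.mul_right _)
  have hN' : N ∣ (C4 ^ 3 - C6 ^ 2) - 1728 * W.Δ := by
    rw [W.c_relation]; exact hcong c4X c6X
  have h27N : (27 : ℤ) ∣ N := by
    rw [show (27 : ℤ) = 3 ^ 3 by norm_num, hN]
    exact (pow_dvd_pow_of_dvd h3X 3).trans (pow_dvd_pow X (le_trans (by norm_num) hj4))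
  obtain ⟨D, hD⟩ : (1728 : ℤ) * 2 ∣ C4 ^ 3 - C6 ^ 2 := by
    rw [show (1728 : ℤ) * 2 = 2 ^ 7 * 27 by norm_num]
    refine IsCoprime.mul_dvd (by norm_num) ?_ ?_
    · have h := hcong ((pow_dvd_pow (2 : ℤ) (show 7 ≤ 128 - 58 by norm_num)).trans c42)
        ((pow_dvd_pow (2 : ℤ) (show 7 ≤ 128 - 86 by norm_num)).trans c62)
      rwa [show (e ^ 22 * 33 ^ 20) ^ 3 - (-(e ^ 33 * 33 ^ 30)) ^ 2 = (0 : ℤ) by ring,
        sub_zero] at h
    · have h := dvd_add (h27N.trans hN') (Dvd.intro (64 * W.Δ) rfl : (27 : ℤ) ∣ 27 * (64 * W.Δ))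
      rwa [show (C4 ^ 3 - C6 ^ 2) - 1728 * W.Δ + 27 * (64 * W.Δ) = C4 ^ 3 - C6 ^ 2 by ring] at h
  rw [mul_assoc] at hD
  obtain ⟨E, eC4, eC6, eD⟩ := Mod2.exists_model_of_invariants W hC4odd hC64
    (h27N.trans c4X) (h27N.trans c6X) hD
  rw [← eC4] at lH
  rw [← eC6] at lT
  have hND : N ∣ 1728 * (E.Δ - W.Δ) := by
    rw [mul_sub, eD, ← hD]; exact hN'
  have hD0 : E.Δ ≠ 0 := fun h0 => by
    rw [h0, zero_sub, mul_neg, dvd_neg] at hND
    have h3 : (3 : ℤ) ^ j ∣ 1728 * W.Δ := (hN ▸ pow_dvd_pow_of_dvd h3X j).trans hND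
    have h4 := Nat.le_of_dvd (Int.natAbs_pos.2 (mul_ne_zero (by norm_num) hΔ))
      (Int.natAbs_dvd_natAbs.2 h3)
    rw [Int.natAbs_pow] at h4
    have h5 := Nat.lt_pow_self (show 1 < 3 by norm_num) (n := j)
    have h6 : (1728 * W.Δ).natAbs < j := hj ▸ Nat.lt_add_of_pos_right (by norm_num)
    exact absurd (h5.trans_le (le_trans (le_of_eq (by rfl)) h4)) (not_lt.2 h6.le)
  -- primes dividing `X`
  have atX : ∀ p : ℕ, p.Prime → (p : ℤ) ∣ X →
      (p : ℤ) ∣ C4 - W.c₄ ∧ (p : ℤ) ∣ E.Δ - W.Δ := by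
    intro p hp hpX
    have hpN : (p : ℤ) ∣ N := hN ▸ hpX.trans (dvd_pow_self X (Nat.pos_iff_ne_zero.1 (lt_of_lt_of_le (by norm_num) hj4)))
    refine ⟨hpN.trans c4X, ?_⟩
    rcases eq_or_ne p 3 with rfl | hp3
    · have h81 : (81 : ℤ) ∣ 1728 * (E.Δ - W.Δ) := by
        refine Dvd.dvd.trans ?_ hND
        rw [show (81 : ℤ) = 3 ^ 4 by norm_num, hN]
        exact (pow_dvd_pow_of_dvd h3X 4).trans (pow_dvd_pow X hj4)
      exact three_dvd_of (E.Δ - W.Δ) h81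
    · refine ((Nat.prime_iff_prime_int.1 hp).dvd_or_dvd (hpN.trans hND)).resolve_left fun h => ?_
      have h' : p ∣ 2 ^ 6 * 3 ^ 3 := by exact_mod_cast h
      rcases hp.dvd_mul.1 h' with h' | h'
      · obtain rfl := (Nat.prime_dvd_prime_iff_eq hp Nat.prime_two).1 (hp.dvd_of_dvd_pow h')
        exact h2X hpX
      · exact hp3 ((Nat.prime_dvd_prime_iff_eq hp Nat.prime_three).1 (hp.dvd_of_dvd_pow h'))
  have odd_small : ∀ p : ℕ, p.Prime → p ≠ 2 → (p : ℤ) ∣ switchM W → (p : ℤ) ∣ X := by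
    intro p hp hp2 h
    rw [hX]
    rcases (Nat.prime_iff_prime_int.1 hp).dvd_or_dvd (show (p : ℤ) ∣ _ * W.Δ from h) with h | h
    · exact (dvd_of_not_dvd_two hp hp2 hO h).mul_right _
    · exact h.mul_left _
  refine ⟨E, hD0, fun p hp hpD hp4 => ?_, ?_, fun h5 => ?_, ?_⟩
  · rcases eq_or_ne p 2 with rfl | hp2
    · exact hC4odd (by exact_mod_cast eC4 ▸ hp4)
    by_cases hM : (p : ℤ) ∣ switchM W
    · obtain ⟨h4, hd⟩ := atX p hp (odd_small p hp hp2 hM)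
      refine hW p hp ?_ ?_
      · simpa using dvd_sub hpD hd
      · rw [eC4] at hp4
        simpa using dvd_sub hp4 h4
    · exact klein_semistable_at hst hp hM lH lT ⟨hpD, hp4⟩
  · rw [eD]; exact Dvd.intro _ rfl
  · have h := (atX 5 Nat.prime_five (odd_small 5 Nat.prime_five (by norm_num)
      (le_thirty_dvd_switchM W Nat.prime_five (by norm_num)))).2
    push_cast at h
    simpa using dvd_sub h5 h
  · refine ⟨Finset.range ((switchM W * t).natAbs + 1), fun ℓ hℓ hℓS hg hg' => ?_⟩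
    have hne : switchM W * t ≠ 0 := by
      refine mul_ne_zero (mul_ne_zero (by exact_mod_cast Nat.factorial_ne_zero 30) hΔ) fun h0 => ?_
      rw [h0] at ht
      norm_num at ht
    have hlt : (switchM W * t).natAbs < ℓ := by
      simpa [Nat.lt_succ_iff] using hℓS
    have nd : ∀ x : ℤ, x ∣ switchM W * t → ¬ (ℓ : ℤ) ∣ x := fun x hx h => by
      have := Nat.le_of_dvd (Int.natAbs_pos.2 hne) (Int.natAbs_dvd_natAbs.2 (h.trans hx))
      exact absurd (Int.natAbs_natCast ℓ ▸ this) (not_le.2 hlt)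
    exact klein_congr_at hℓ hg hg' (nd _ (Dvd.intro _ rfl)) (nd _ (Dvd.intro_left _ rfl)) lH lT

end FLTAgent.SwitchTwo
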