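import Fermat.Agent.Main.Inputs.Lifting
import Fermat.Agent.Main.Level
import Fermat.Agent.Lower.Lift.Systems
import Fermat.Agent.SwitchTwo.Basic

/-!
# Lifting along a congruence

`modular_of_congr`: for `p = 3, 5`, a semistable curve with irreducible mod `p` representation and
traces congruent at almost all primes to a curve modular of its conductor level (good at `p` when it
is) is modular of its conductor level: residual modularity at the conductor level of the partner,
the lifting theorem, and descent to the conductor level.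
-/

set_option autoImplicit false

namespace FLTAgent.SwitchTwo

open WeierstrassCurve

/-- Modularity passes along a mod-`p` congruence, for `p = 3, 5` and irreducible `W[p]`. -/
theorem modular_of_congr (p : ℕ) (hp : p = 3 ∨ p = 5) (W E : WeierstrassCurve ℤ) (hΔ : W.Δ ≠ 0)
    (hW : W.IsSemistableModel) (hirr : W.ModRepIsIrreducible p) (hΔE : E.Δ ≠ 0)
    (hmod : E.IsModularModelOfLevel E.conductorLevel)
    (hpE : (p : ℤ) ∣ E.Δ → (p : ℤ) ∣ W.Δ) (h : Congr p W E) :
    W.IsModularModelOfLevel W.conductorLevel := by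
  have hpp : p.Prime := by rcases hp with rfl | rfl <;> norm_num
  have : Fact p.Prime := ⟨hpp⟩
  obtain ⟨S, hS⟩ := h
  obtain ⟨f, hf, hcoef⟩ := hmod
  obtain ⟨𝔪, h𝔪, hp𝔪⟩ := FLTPrelim.exists_maximalIdeal_natCast_prime_mem hpp
  have hres : W.IsResiduallyModularOfLevel p E.conductorLevel := by
    refine Lower.Lift.isResiduallyModularOfLevel_of_congr hΔ
      (by rcases hp with rfl | rfl <;> norm_num) hirr hf h𝔪 hp𝔪 S fun l hl hlS hgood hlN _ => ?_
    have hgE : E.IsGoodPrimeFor l := fun hd => hlN ((E.prime_dvd_conductorLevel_iff hΔE hl).2 hd)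
    refine ⟨((E.apOfModel l : ℤ) : integralClosure ℤ ℂ), ?_, ?_⟩
    · rw [hcoef l hl hgE hlN]; exact SubringClass.coe_intCast _ _
    · obtain ⟨c, hc⟩ := hS l hl hlS hgood hgE
      rw [← Int.cast_sub, hc, Int.cast_mul, Int.cast_natCast]
      exact Ideal.mul_mem_right _ _ hp𝔪
  obtain ⟨N, hN3, hN⟩ := Main.Inputs.modular_of_residual p hp W hΔ hW hirr E.conductorLevel
    E.squarefree_conductorLevel
    (fun hg hd => hg (hpE ((E.prime_dvd_conductorLevel_iff hΔE hpp).1 hd))) hres
  exact Main.modular_conductorLevel hW hΔ hN3 hN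

end FLTAgent.SwitchTwo
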