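import Fermat.Agent.Main.Modular
import Fermat.Agent.Switch.Export
import Fermat.Agent.SwitchTwo.Hesse
import Fermat.Agent.SwitchTwo.Klein
import Fermat.Agent.SwitchTwo.Irreducible
import Fermat.Agent.SwitchTwo.Lift

/-!
# Semistable curves are modular

`modular_of_semistable`: every semistable curve is modular of its conductor level. With bad
reduction at `2` this is `Main.modular_of_two_dvd`; otherwise switches at `3` and then at `5` reach
such a curve and lifting comes back (`modular_of_irreducible_three`). When `E[3]` is reducible,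
`E[5]` is irreducible and the 3-5 switch reduces to that case.
-/

set_option autoImplicit false

namespace FLTAgent.SwitchTwo

open WeierstrassCurve

/-- A curve with ordinary good reduction at `2` and irreducible `E[3]` is modular: two switches
reach a curve with bad reduction at `2`. -/
theorem modular_of_ordinary {W : WeierstrassCurve ℤ} (hΔ : W.Δ ≠ 0) (hW : W.IsSemistableModel)
    (h2 : ¬ (2 : ℤ) ∣ W.Δ) (hc : ¬ (2 : ℤ) ∣ W.c₄) (h3 : W.ModRepIsIrreducible 3) :
    W.IsModularModelOfLevel W.conductorLevel := by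
  have : Fact (Nat.Prime 3) := ⟨Nat.prime_three⟩
  have : Fact (Nat.Prime 5) := ⟨Nat.prime_five⟩
  obtain ⟨l, hl, hlB, hl5, hgood, hne⟩ := Ihara.exists_not_eisenstein W hΔ (p := 5) (by norm_num)
    (irreducible_five_of_ordinary W hΔ hW h2 hc) {2, 3}
  have hl5' : 5 ≤ l := by
    simp only [Finset.mem_insert, Finset.mem_singleton, not_or] at hlB
    have := hl.two_le
    by_contra
    interval_cases l <;> simp_all (config := { decide := true })
  obtain ⟨E, hΔE, hE, hE2, h33, hcongr, hgE, hap, hnear⟩ :=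
    exists_switch_ordinary W hΔ hW h2 hc 128 hl hl5' hgood
  have hE3 : E.ModRepIsIrreducible 3 :=
    irreducible_of_congr hΔ hΔE hE (by norm_num) h3 hcongr
  have hE5 : E.ModRepIsIrreducible 5 := by
    by_contra hred
    exact hne (hap ▸ dvd_ap_of_reducible E hΔE hE (by norm_num) hred hl hl5 hgE)
  obtain ⟨E', hΔE', hE', hE'2, h55, hcongr'⟩ := exists_switch_klein E hΔE hE hE2 hnear
  exact modular_of_congr 3 (Or.inl rfl) W E hΔ hW h3 hΔE
    (modular_of_congr 5 (Or.inr rfl) E E' hΔE hE hE5 hΔE'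
      (Main.modular_of_two_dvd hΔE' hE' hE'2) h55 hcongr') h33 hcongr

/-- Irreducible `E[3]` suffices. -/
theorem modular_of_irreducible_three {W : WeierstrassCurve ℤ} (hΔ : W.Δ ≠ 0)
    (hW : W.IsSemistableModel) (h3 : W.ModRepIsIrreducible 3) :
    W.IsModularModelOfLevel W.conductorLevel := by
  have : Fact (Nat.Prime 3) := ⟨Nat.prime_three⟩
  by_cases h2 : (2 : ℤ) ∣ W.Δ
  · exact Main.modular_of_two_dvd hΔ hW h2
  by_cases hc : (2 : ℤ) ∣ W.c₄
  · obtain ⟨E, hΔE, hE, hEc, h33, hcongr⟩ := exists_switch_supersingular W hΔ hW h2 hc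
    refine modular_of_congr 3 (Or.inl rfl) W E hΔ hW h3 hΔE ?_ h33 hcongr
    by_cases hE2 : (2 : ℤ) ∣ E.Δ
    · exact Main.modular_of_two_dvd hΔE hE hE2
    exact modular_of_ordinary hΔE hE hE2 hEc
      (irreducible_of_congr hΔ hΔE hE (by norm_num) h3 hcongr)
  exact modular_of_ordinary hΔ hW h2 hc h3

/-- Every semistable curve is modular of its conductor level. -/
theorem modular_of_semistable (W : WeierstrassCurve ℤ) (hΔ : W.Δ ≠ 0) (hW : W.IsSemistableModel) :
    W.IsModularModelOfLevel W.conductorLevel := by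
  rcases Fermat.Agent.S51.result W hΔ hW with h3 | h5
  · exact modular_of_irreducible_three hΔ hW h3
  obtain ⟨E, hΔE, hE, hE3, hcongr, hred, -⟩ := Switch.exists_switch35 W hΔ hW
  refine modular_of_congr 5 (Or.inr rfl) W E hΔ hW h5 hΔE
    (modular_of_irreducible_three hΔE hE hE3) (fun hd => ?_)
    ⟨∅, fun ℓ hℓ _ hg hg' => hcongr ℓ hℓ hg hg'⟩
  have e := congrArg WeierstrassCurve.Δ (hred 5 Nat.prime_five (Or.inl (by norm_num)))
  simp only [WeierstrassCurve.reductionMod, WeierstrassCurve.map_Δ, eq_intCast] at e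
  rw [(ZMod.intCast_zmod_eq_zero_iff_dvd _ 5).2 hd] at e
  exact (ZMod.intCast_zmod_eq_zero_iff_dvd _ 5).1 e.symm

end FLTAgent.SwitchTwo
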